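import Mathlib
import Fermat.Agent.LT.Descent.Uni.Local
import Fermat.Agent.LT.Whit.Hecke
import Fermat.Agent.LT2.Cusp.Sphere

/-!
# The cosets at a place of maximal level in horocyclic coordinates

A coset is a height and a translation up to that height; an invariant kernel depends on the
distance only, and the cosets of one height are sorted by the shell of the translation.
-/

set_option autoImplicit false

noncomputable section

open Matrix IsDedekindDomain NumberField WithZero
open scoped MatrixGroups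

namespace FermatAgent.LT2.Geo

open FermatAgent.LT
open FermatAgent.LT.Whit (nB dG unifU v_unifU v_unifU_zpow nB_add nB_neg nB_zero dG_one dG_mul
  dG_inv dG_mul_nB nB_mem_locK dG_mem_locK)

variable {F : Type*} [Field F] [NumberField F]

omit [NumberField F] in
lemma dG_zpow_mul (a : Fˣ) (m n : ℤ) : (dG (a ^ m) : G2 F) * dG (a ^ n) = dG (a ^ (m + n)) := by
  rw [← dG_mul, ← _root_.zpow_add]

/-- Horocyclic volume of a shell. -/
def vol (q e : ℕ) : ℂ := if e = 0 then 1 else (1 - (q : ℂ)⁻¹) * (q : ℂ) ^ e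

/-- The shell of an element. -/
def shell (v : HeightOneSpectrum (𝓞 F)) (β : F) : ℕ := (log (v.valuation F β)).toNat

/-- A shell bound is a valuation bound. -/
lemma shell_le_iff {v : HeightOneSpectrum (𝓞 F)} {β : F} {E : ℕ} :
    shell v β ≤ E ↔ v.valuation F β ≤ exp (E : ℤ) := by
  unfold shell
  by_cases h0 : v.valuation F β = 0
  · simp [h0]
  · conv_rhs => rw [← exp_log h0, exp_le_exp]
    omega

/-- Integral translations keep the shell. -/
lemma shell_add {v : HeightOneSpectrum (𝓞 F)} (x : F) {a : F} (ha : v.valuation F a ≤ 1) :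
    shell v (x + a) = shell v x :=
  eq_of_forall_ge_iff fun E => by
    rw [shell_le_iff, shell_le_iff, ← Cusp.mem_vball, ← Cusp.mem_vball]
    exact AddSubgroup.add_mem_cancel_right _ (ha.trans (by
      rw [← exp_zero, exp_le_exp]; positivity))

variable {U : Level F} {v : HeightOneSpectrum (𝓞 F)}

variable (U v) in
/-- The coset of a translation at a height. -/
def pt (β : F) (n : ℤ) : G2 F ⧸ U.loc v :=
  QuotientGroup.mk ((nB β : G2 F) * dG (unifU v ^ n))

/-- Translations act on points of the tree. -/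
lemma nB_smul_pt (x β : F) (n : ℤ) : (nB x : G2 F) • pt U v β n = pt U v (x + β) n := by
  rw [pt, pt, MulAction.Quotient.smul_mk, smul_eq_mul, ← mul_assoc, ← nB_add]

/-- The points on the main line. -/
lemma pt_zero (n : ℤ) : pt U v 0 n = QuotientGroup.mk (dG (unifU v ^ n)) := by
  rw [pt, nB_zero, one_mul]

/-- The base point. -/
lemma base_eq_pt : (QuotientGroup.mk 1 : G2 F ⧸ U.loc v) = pt U v 0 0 := by
  rw [pt_zero, zpow_zero, dG_one]

/-- The torus shifts heights. -/
lemma dG_unif_smul_pt (m : ℤ) (β : F) (n : ℤ) :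
    (dG (unifU v ^ m) : G2 F) • pt U v β n =
      pt U v (((unifU v ^ m : Fˣ) : F) * β) (m + n) := by
  rw [pt, pt, MulAction.Quotient.smul_mk, smul_eq_mul, ← mul_assoc, dG_mul_nB, mul_assoc,
    dG_zpow_mul]

variable (hU : U.loc v = locK v)

include hU in
lemma mk_eq_base {k : G2 F} (hk : k ∈ locK v) :
    (QuotientGroup.mk k : G2 F ⧸ U.loc v) = QuotientGroup.mk 1 := by
  rw [QuotientGroup.eq, mul_one, hU]
  exact inv_mem hk

lemma pt_inv_mul (β β' : F) (n : ℤ) :
    ((nB β : G2 F) * dG (unifU v ^ n))⁻¹ * (nB β' * dG (unifU v ^ n)) =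
      nB (((unifU v ^ (-n) : Fˣ) : F) * (β' - β)) := by
  rw [_root_.mul_inv_rev, ← dG_inv, ← _root_.zpow_neg, mul_assoc, ← mul_assoc (nB β)⁻¹, ← nB_neg,
    ← nB_add, ← mul_assoc, dG_mul_nB, mul_assoc, dG_zpow_mul, neg_add_cancel, zpow_zero, dG_one,
    mul_one, neg_add_eq_sub]

include hU in
/-- Close translations give the same point. -/
lemma pt_eq_of_val_le {β β' : F} {n : ℤ} (h : v.valuation F (β - β') ≤ exp (-n)) :
    pt U v β n = pt U v β' n := by
  rw [pt, pt, QuotientGroup.eq, hU]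
  rw [pt_inv_mul]
  refine nB_mem_locK ?_
  rw [map_mul, v_unifU_zpow, Valuation.map_sub_swap, neg_neg]
  refine (mul_le_mul' le_rfl h).trans (le_of_eq ?_)
  rw [← exp_add, add_neg_cancel, exp_zero]

lemma absV_unif (n : ℤ) :
    absV v ((unifU v ^ n : Fˣ) : F) = (v.asIdeal.absNorm : ℝ) ^ (-n) :=
  absV_of_valuation (v_unifU_zpow v n)

/-- The first size of a point. -/
lemma locM_e1_pt (β : F) (n : ℤ) :
    locM v e1 (pt U v β n) = (v.asIdeal.absNorm : ℝ) ^ n := by
  rw [pt, ← smul_eq_mul, ← MulAction.Quotient.smul_mk, Hyp.locM_nB,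
    show (QuotientGroup.mk (dG (unifU v ^ n)) : G2 F ⧸ U.loc v) =
      (dG (unifU v ^ n) : G2 F) • QuotientGroup.mk 1 by
      rw [MulAction.Quotient.smul_mk, smul_eq_mul, mul_one],
    Hyp.locM_e1_dG, Uni.locM_proj (one_mem _), absV_unif]
  simp [vecAbs, e1, _root_.zpow_neg]

/-- The second size of a point. -/
lemma locM_e0_pt (β : F) (n : ℤ) :
    locM v e0 (pt U v β n) =
      max ((v.asIdeal.absNorm : ℝ) ^ (-n)) (absV v β) ^ 2 * (v.asIdeal.absNorm : ℝ) ^ n := by
  have e : pt U v β n =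
      (nB β : G2 F) • (dG (unifU v ^ n) : G2 F) • QuotientGroup.mk (1 : G2 F) := by
    rw [MulAction.Quotient.smul_mk, MulAction.Quotient.smul_mk, smul_eq_mul,
      smul_eq_mul, mul_one, pt]
  rw [e, ← Uni.line_zero, Uni.locM_line_normal 0 β _ (one_mem _), absV_unif, zero_add,
    div_eq_mul_inv, _root_.zpow_neg, inv_inv]

/-- Powers of the norm are distinct. -/
lemma zpow_absNorm_inj {m n : ℤ}
    (h : (v.asIdeal.absNorm : ℝ) ^ m = (v.asIdeal.absNorm : ℝ) ^ n) : m = n :=
  zpow_right_injective₀ (by exact_mod_cast (zero_lt_one.trans (HeightOneSpectrum.one_lt_absNorm v)))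
    (by exact_mod_cast (HeightOneSpectrum.one_lt_absNorm v).ne') h

include hU in
/-- When two points agree. -/
lemma pt_eq_iff {β β' : F} {n n' : ℤ} :
    pt U v β n = pt U v β' n' ↔ n = n' ∧ v.valuation F (β - β') ≤ exp (-n) := by
  refine ⟨fun h => ?_, fun ⟨e, h⟩ => e ▸ pt_eq_of_val_le hU h⟩
  have e := congrArg (locM v e1) h
  rw [locM_e1_pt, locM_e1_pt] at e
  obtain rfl := zpow_absNorm_inj e
  refine ⟨rfl, ?_⟩
  rw [pt, pt, QuotientGroup.eq, hU] at h
  rw [pt_inv_mul] at h
  have h1 := (Whit.mk_uB_mem_locK_iff v).1 h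
  rw [map_mul, v_unifU_zpow, Valuation.map_sub_swap, neg_neg] at h1
  calc v.valuation F (β - β') = exp (-n) * (exp n * v.valuation F (β - β')) := by
        rw [← mul_assoc, ← exp_add, neg_add_cancel, exp_zero, one_mul]
    _ ≤ exp (-n) * 1 := mul_le_mul' le_rfl h1
    _ = exp (-n) := mul_one _

include hU in
/-- Every coset has coordinates. -/
lemma exists_pt (c : G2 F ⧸ U.loc v) : ∃ β n, c = pt U v β n := by
  obtain ⟨β, α, κ, hκ, rfl⟩ := Uni.exists_normal c
  obtain ⟨m, hm⟩ : ∃ m : ℤ, v.valuation F (α : F) = exp m := ⟨_, (exp_log (by simp)).symm⟩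
  refine ⟨β, -m, ?_⟩
  rw [mk_eq_base hU hκ, pt, MulAction.Quotient.smul_mk, MulAction.Quotient.smul_mk, smul_eq_mul,
    smul_eq_mul, mul_one, QuotientGroup.eq, hU, _root_.mul_inv_rev, mul_assoc,
    inv_mul_cancel_left, ← dG_inv, ← dG_mul]
  refine dG_mem_locK ?_
  rw [Units.val_mul, map_mul, Units.val_inv_eq_inv_val, map_inv₀, hm, v_unifU_zpow, neg_neg,
    inv_mul_cancel₀ exp_ne_zero]

/-- The kernel from the base to the diagonal coset of an exponent. -/
def radial (A : LocKer U v) (n : ℕ) : ℂ := A.k (QuotientGroup.mk 1) (pt U v 0 n)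

include hU in
lemma ker_smul_base (A : LocKer U v) {k : G2 F} (hk : k ∈ locK v) (d : G2 F ⧸ U.loc v) :
    A.k (QuotientGroup.mk 1) (k • d) = A.k (QuotientGroup.mk 1) d := by
  conv_lhs => rw [← mk_eq_base hU hk, show (QuotientGroup.mk k : G2 F ⧸ U.loc v) =
    k • QuotientGroup.mk 1 by rw [MulAction.Quotient.smul_mk, smul_eq_mul, mul_one]]
  rw [A.inv]

include hU in
/-- Kernels do not see integral translations at the base. -/
lemma ker_pt_small (A : LocKer U v) {β : F} (hβ : v.valuation F β ≤ 1) (n : ℤ) :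
    A.k (QuotientGroup.mk 1) (pt U v β n) = A.k (QuotientGroup.mk 1) (pt U v 0 n) := by
  conv_lhs => rw [← add_zero β, ← nB_smul_pt]
  exact ker_smul_base hU A (nB_mem_locK hβ) _

include hU in
/-- Diagonal points. -/
lemma mk_dG_eq_pt {a : Fˣ} {m : ℤ} (ha : v.valuation F (a : F) = exp (-m)) :
    (QuotientGroup.mk (dG a) : G2 F ⧸ U.loc v) = pt U v 0 m := by
  rw [pt_zero, QuotientGroup.eq, hU, ← dG_inv, ← dG_mul]
  refine dG_mem_locK ?_
  rw [Units.val_mul, map_mul, Units.val_inv_eq_inv_val, map_inv₀, ha, v_unifU_zpow,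
    inv_mul_cancel₀ exp_ne_zero]

include hU in
/-- Opposite exponents. -/
lemma ker_pt_neg (A : LocKer U v) (n : ℕ) :
    A.k (QuotientGroup.mk 1) (pt U v 0 (-(n : ℤ))) = radial A n := by
  conv_lhs => rw [← A.inv (dG (unifU v ^ (n : ℤ))), base_eq_pt, dG_unif_smul_pt, dG_unif_smul_pt,
    mul_zero, add_zero, add_neg_cancel]
  rw [radial, base_eq_pt]
  exact Cusp.locKer_symm hU A _ _

include hU in
/-- Outside the integral translations only the distance matters. -/
theorem ker_pt_shell (A : LocKer U v) {β : F} {e : ℕ} (hβ : v.valuation F β = exp (e : ℤ)) {n : ℤ}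
    (hn : 0 ≤ n + e) :
    A.k (QuotientGroup.mk 1) (pt U v β n) = radial A (n + 2 * e).toNat := by
  have hβ0 : β ≠ 0 := fun h => exp_ne_zero (by rw [← hβ, h, map_zero])
  obtain ⟨k, hk, k', hk', key⟩ := Cusp.exists_cartan_upper (v := v) (α := unifU v ^ n) hβ0
    (by rw [map_div₀, map_one, hβ, one_div, ← WithZero.exp_neg, ← exp_zero, exp_le_exp]; omega)
    (by rw [map_div₀, v_unifU_zpow, hβ, ← WithZero.exp_sub, ← exp_zero, exp_le_exp]; omega)
  rw [pt, show (nB β : G2 F) * dG (unifU v ^ n) =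
      ProjGenLinGroup.mk (uB β * dB (unifU v ^ n)) from (map_mul _ _ _).symm, key, mul_assoc,
    ← smul_eq_mul k, ← MulAction.Quotient.smul_mk, ker_smul_base hU A hk,
    QuotientGroup.mk_mul_of_mem _ (hU ▸ hk'),
    show (n + 2 * (e : ℤ)).toNat = (n + 2 * e).toNat from rfl]
  refine (congrArg _ (mk_dG_eq_pt hU (m := -(((n + 2 * e).toNat : ℕ) : ℤ)) ?_)).trans
    (ker_pt_neg hU A _)
  rw [Units.val_mk0, map_div₀, map_div₀, hβ, v_unifU_zpow, ← WithZero.exp_sub, ← WithZero.exp_sub]
  congr 1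
  omega

variable (U v) in
/-- The coset of a class of translations at a height. -/
def ptQ (n : ℤ) (c : F ⧸ (Cusp.chainV v).L n) : G2 F ⧸ U.loc v := pt U v c.out n

include hU in
/-- The point of a class of translations. -/
lemma ptQ_mk (n : ℤ) (β : F) : ptQ U v n (QuotientAddGroup.mk β) = pt U v β n :=
  pt_eq_of_val_le hU (by
    rw [Valuation.map_sub_swap, ← neg_add_eq_sub]
    exact (Cusp.mem_chainV v).1 (QuotientAddGroup.eq.1
      (QuotientAddGroup.out_eq' (QuotientAddGroup.mk β : F ⧸ (Cusp.chainV v).L n))))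

include hU in
lemma ptQ_injective (n : ℤ) : Function.Injective (ptQ U v n) := fun c c' h => by
  rw [← QuotientAddGroup.out_eq' c, ← QuotientAddGroup.out_eq' c', QuotientAddGroup.eq,
    Cusp.mem_chainV, neg_add_eq_sub, Valuation.map_sub_swap]
  exact ((pt_eq_iff hU).mp h).2

lemma sum_vol (q : ℕ) (hq : (q : ℂ) ≠ 0) (φ : ℕ → ℂ) : ∀ E : ℕ,
    ∑ j ∈ Finset.range (E + 1), (q : ℂ) ^ j * (φ j - φ (j + 1)) =
      ∑ e ∈ Finset.range (E + 1), vol q e * φ e - (q : ℂ) ^ E * φ (E + 1)
  | 0 => by simp [vol]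
  | E + 1 => by
    rw [Finset.sum_range_succ, sum_vol q hq φ E,
      Finset.sum_range_succ (fun e => vol q e * φ e) (E + 1), vol, if_neg (Nat.succ_ne_zero E)]
    field_simp
    ring

open Classical in
include hU in
/-- The sum over a height of a function of the shell. -/
theorem tsum_height (n : ℕ) (g : G2 F ⧸ U.loc v → ℂ) (φ : ℕ → ℂ)
    (hg : ∀ β, g (pt U v β n) = φ (shell v β)) {E : ℕ} (hφ : ∀ e, E < e → φ e = 0) :
    ∑' c, (if locM v e1 c = (v.asIdeal.absNorm : ℝ) ^ (n : ℤ) then g c else 0) =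
      (v.asIdeal.absNorm : ℂ) ^ n * ∑' e, vol v.asIdeal.absNorm e * φ e := by
  have hper : (Cusp.chainV v).IsPeriodic n fun β => φ (shell v β) := fun x a ha =>
    congrArg φ (shell_add x (le_trans ((Cusp.mem_chainV v).1 ha)
      (by rw [← exp_zero, exp_le_exp]; omega)))
  have hsupp : (Cusp.chainV v).IsSupported (-(E : ℤ)) fun β => φ (shell v β) := fun x hx =>
    hφ _ (not_le.1 fun h => hx ((Cusp.mem_chainV v).2 (by rw [neg_neg]; exact shell_le_iff.1 h)))
  have h := (Theta.LatticeChain.integ_eq hper hsupp).symm.trans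
    (Cusp.integ_radial v φ (N := E + 1) (fun j hj => hφ j hj) 0 fun x j hle hlt => congrArg φ
      (le_antisymm (shell_le_iff.2 (by simpa using hle))
        (not_lt.1 fun h => hlt _ h (by simpa using shell_le_iff.1 (le_refl (shell v x))))))
  have hq : (v.asIdeal.absNorm : ℂ) ≠ 0 := (Cusp.chainV v).Q_ne_zero
  simp only [zero_add, zpow_natCast] at h
  rw [sum_vol _ hq, hφ (E + 1) E.lt_succ_self, mul_zero, sub_zero, Theta.LatticeChain.sumAt,
    inv_mul_eq_iff_eq_mul₀ (zpow_ne_zero _ (Cusp.chainV v).Q_ne_zero), zpow_natCast] at h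
  rw [← (ptQ_injective hU (n : ℤ)).tsum_eq fun c hc => ?_]
  simp only [ptQ, locM_e1_pt, if_true, hg]
  rw [tsum_eq_finsum (Theta.LatticeChain.finite_support_out hsupp), h,
    tsum_eq_sum (s := Finset.range (E + 1)) fun e he => by
      rw [hφ e (by simpa using he), mul_zero]]
  · rfl
  · obtain ⟨β, m, rfl⟩ := exists_pt hU c
    obtain ⟨hm, -⟩ := ite_ne_right_iff.mp hc
    rw [locM_e1_pt] at hm
    obtain rfl := zpow_absNorm_inj hm
    exact ⟨QuotientAddGroup.mk β, ptQ_mk hU _ β⟩

end FermatAgent.LT2.Geo
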