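import Mathlib
import Fermat.Agent.LT2.Geo.Tree
import Fermat.Agent.LT2.Cusp.Sphere
import Fermat.Agent.LT2.Spec.Profile

/-!
# Flat kernels

The radial kernel of a flat profile has vanishing plain and weighted sums over the slice against a
diagonal element of bounded valuation, and against the unit translation.
-/

set_option autoImplicit false

noncomputable section

open Matrix IsDedekindDomain NumberField WithZero
open scoped MatrixGroups

namespace FermatAgent.LT2.Geo

open FermatAgent.LT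
open FermatAgent.LT.Whit (nB dG unifU v_unifU v_unifU_zpow nB_add nB_neg nB_zero dG_one dG_mul
  dG_inv dG_mul_nB nB_mem_locK dG_mem_locK)

variable {F : Type*} [Field F] [NumberField F] [IsTotallyComplex F] {U : Level F}
  {v : HeightOneSpectrum (𝓞 F)}

/-- A kernel killed in a range against diagonal elements and against the unit translation. -/
structure FlatKer (R : ℕ) (A : LocKer U v) : Prop where
  hyp : ∀ a : Fˣ, (a : F) ≠ 1 → |log (v.valuation F (a : F))| ≤ R →
    ∑' c, (Hyp.slice U v).indicator (fun c => A.k ((dG a : G2 F) • c) c) c = 0 ∧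
      ∑' c, (Hyp.slice U v).indicator
        (fun c => (Hyp.lw c : ℂ) * A.k ((dG a : G2 F) • c) c) c = 0
  uni_fin : {c | Uni.pw c ≠ 0 ∧ A.k ((nB 1 : G2 F) • c) c ≠ 0}.Finite
  uni : ∑' c, (Uni.pw c : ℂ) * A.k ((nB 1 : G2 F) • c) c = 0 ∧
    ∑' c, (Real.log (locM v e1 c) : ℂ) * ((Uni.pw c : ℂ) * A.k ((nB 1 : G2 F) • c) c) = 0

/-- Vanishing of the low values and of both horocyclic sums. -/
structure Sums (q R : ℕ) (f : ℕ → ℂ) : Prop where
  fin : ∃ N, ∀ n, N < n → f n = 0
  low : ∀ n ≤ R, f n = 0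
  sum0 : ∀ n ≤ R, ∑' e, vol q e * f (n + 2 * e) = 0
  sum1 : ∀ n ≤ R, ∑' e : ℕ, (e : ℂ) * (vol q e * f (n + 2 * e)) = 0

lemma Sums.summable {q R : ℕ} {f : ℕ → ℂ} (h : Sums q R f) (c : ℕ → ℂ) (n : ℕ) :
    Summable fun e => c e * f (n + 2 * e) := by
  obtain ⟨N, hN⟩ := h.fin
  refine summable_of_hasFiniteSupport ((Set.finite_le_nat N).subset fun e he => ?_)
  by_contra hlt
  simp only [Set.mem_ofPred_eq, not_le] at hlt
  exact he (by dsimp only; rw [hN _ (by omega), mul_zero])

section OfFlat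

variable {R : ℕ} {c : ℕ →₀ ℝ} {q : ℕ}

lemma tsum_parity (w : ℕ → ℝ) (hc : ∀ n ≤ R, c n = 0) {n : ℕ} (hn : n ≤ R) :
    ∑' e, w (n + 2 * e) * c (n + 2 * e) = Spec.parSum w n c := by
  have h : ∑' m, (if m % 2 = n % 2 then w m * c m else 0) = Spec.parSum w n c :=
    tsum_eq_sum fun m hm => by rw [Finsupp.notMem_support_iff.mp hm, mul_zero, ite_self]
  rw [← h]
  rw [← Function.Injective.tsum_eq (g := fun e : ℕ => n + 2 * e) (fun a b h => by simpa using h)
    (f := fun m => if m % 2 = n % 2 then w m * c m else 0) fun m hm => ?_]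
  · exact tsum_congr fun e => by simp
  simp only [Function.mem_support, ne_eq, ite_eq_right_iff, Classical.not_imp, mul_eq_zero,
    not_or] at hm
  refine ⟨(m - n) / 2, ?_⟩
  have : n < m := by
    by_contra h
    exact hm.2.2 (hc m (by omega))
  dsimp only
  omega

/-- A flat profile, scaled, has vanishing sums. -/
theorem sums_of_flat (hq : 1 < q) (hc : Spec.Flat R c) {f : ℕ → ℂ}
    (hf : ∀ n, f n = (c n : ℂ) * (((Real.sqrt q)⁻¹ ^ n : ℝ) : ℂ)) : Sums q R f := by
  obtain ⟨hlow, hpar⟩ := hc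
  have hq0 : (0 : ℝ) < q := by exact_mod_cast zero_lt_one.trans hq
  have key : ∀ n ≤ R, ∀ e : ℕ, vol q e * f (n + 2 * e) =
      (((1 - (q : ℝ)⁻¹) * (Real.sqrt q)⁻¹ ^ n * c (n + 2 * e) : ℝ) : ℂ) := by
    intro n hn e
    rcases Nat.eq_zero_or_pos e with rfl | he
    · simp [hf, hlow n hn]
    rw [vol, if_neg he.ne', hf, pow_add, pow_mul, inv_pow (Real.sqrt q) 2, Real.sq_sqrt hq0.le]
    have h1 : (q : ℝ) ^ e * (q : ℝ)⁻¹ ^ e = 1 := by rw [← mul_pow, mul_inv_cancel₀ hq0.ne', one_pow]
    rw [show ((1 - (q : ℂ)⁻¹) * (q : ℂ) ^ e) = (((1 - (q : ℝ)⁻¹) * (q : ℝ) ^ e : ℝ) : ℂ) by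
      push_cast; rfl, ← Complex.ofReal_mul, ← Complex.ofReal_mul]
    congr 1
    linear_combination ((1 - (q : ℝ)⁻¹) * c (n + 2 * e) * (Real.sqrt q)⁻¹ ^ n) * h1
  refine ⟨⟨c.support.sup id, fun n hn => ?_⟩, fun n hn => by rw [hf, hlow n hn]; simp,
    fun n hn => ?_, fun n hn => ?_⟩
  · rw [hf, Finsupp.notMem_support_iff.mp fun h => absurd (Finset.le_sup (f := id) h)
      (not_le.mpr hn)]
    simp
  · rw [tsum_congr (key n hn), ← Complex.ofReal_tsum, tsum_mul_left]
    have := tsum_parity (fun _ => 1) hlow hn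
    simp only [one_mul] at this
    rw [this, (hpar n).1, mul_zero, Complex.ofReal_zero]
  · have e2 : ∀ e : ℕ, (e : ℂ) * (vol q e * f (n + 2 * e)) =
        ((((1 - (q : ℝ)⁻¹) * (Real.sqrt q)⁻¹ ^ n / 2) *
          ((((n + 2 * e : ℕ) : ℝ) - n) * c (n + 2 * e)) : ℝ) : ℂ) := fun e => by
      rw [key n hn, ← Complex.ofReal_natCast e, ← Complex.ofReal_mul]
      congr 1
      push_cast
      ring
    rw [tsum_congr e2, ← Complex.ofReal_tsum, tsum_mul_left,
      tsum_parity (fun m => (m : ℝ) - n) hlow hn]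
    have : Spec.parSum (fun m => (m : ℝ) - n) n c =
        Spec.parSum (fun m => (m : ℝ)) n c - n * Spec.parSum (fun _ => 1) n c := by
      simp only [Spec.parSum, Finsupp.sum, Finset.mul_sum, ← Finset.sum_sub_distrib]
      exact Finset.sum_congr rfl fun m _ => by split_ifs <;> ring
    rw [this, (hpar n).1, (hpar n).2]
    simp

end OfFlat

variable (hU : U.loc v = locK v)

omit [IsTotallyComplex F]

lemma shell_eq_zero_iff {β : F} : shell v β = 0 ↔ v.valuation F β ≤ 1 := by
  simpa using shell_le_iff (v := v) (β := β) (E := 0)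

lemma valuation_of_shell_pos {β : F} (h : 0 < shell v β) :
    v.valuation F β = exp (shell v β : ℤ) := by
  unfold shell at h ⊢
  have h0 : v.valuation F β ≠ 0 := fun e => by simp [e] at h
  rw [Int.toNat_of_nonneg (by omega), exp_log h0]

lemma max_one_absV (β : F) :
    max 1 (absV v β) = (v.asIdeal.absNorm : ℝ) ^ (shell v β : ℤ) := by
  rcases Nat.eq_zero_or_pos (shell v β) with h | h
  · rw [h, max_eq_left ((absV_le_one_iff v β).mpr (shell_eq_zero_iff.mp h))]
    simp
  · rw [absV_of_valuation (valuation_of_shell_pos h), max_eq_right]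
    exact one_le_zpow₀ (by exact_mod_cast (HeightOneSpectrum.one_lt_absNorm v).le) (by positivity)

lemma lw_pt_zero (β : F) :
    Hyp.lw (pt U v β 0) = 2 * (shell v β : ℝ) * Real.log v.asIdeal.absNorm := by
  rw [Hyp.lw, locM_e1_pt, locM_e0_pt, neg_zero, zpow_zero, one_mul, mul_one, max_one_absV,
    zpow_natCast, ← pow_mul, Real.log_pow]
  push_cast
  ring

include hU in
lemma ker_slice (A : LocKer U v) {a : Fˣ} {m : ℤ} (ha : v.valuation F (a : F) = exp (-m)) (β : F) :
    A.k ((dG a : G2 F) • pt U v β 0) (pt U v β 0) = A.k (QuotientGroup.mk 1)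
      (pt U v (((unifU v ^ (-m) : Fˣ) : F) * ((1 - (a : F)) * β)) (-m)) := by
  have e : (dG a : G2 F) • pt U v β 0 = pt U v ((a : F) * β) m := by
    rw [pt, zpow_zero, dG_one, mul_one, MulAction.Quotient.smul_mk, smul_eq_mul, dG_mul_nB,
      ← smul_eq_mul, ← MulAction.Quotient.smul_mk, mk_dG_eq_pt hU ha, nB_smul_pt, add_zero]
  rw [e, ← A.inv (dG (unifU v ^ (-m)) * nB (-((a : F) * β))), mul_smul, mul_smul, nB_smul_pt,
    nB_smul_pt, neg_add_cancel, dG_unif_smul_pt, dG_unif_smul_pt, mul_zero, neg_add_cancel,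
    ← base_eq_pt, add_zero]
  congr 2
  ring

include hU in
lemma ker_slice_shift (A : LocKer U v) {a : Fˣ} {m : ℤ} (ha : v.valuation F (a : F) = exp (-m))
    (hm : m ≠ 0) (β : F) :
    A.k ((dG a : G2 F) • pt U v β 0) (pt U v β 0) = radial A (m.natAbs + 2 * shell v β) := by
  rw [ker_slice hU A ha]
  rcases lt_or_gt_of_ne hm with hneg | hpos
  · -- large multiplier
    have h1 : v.valuation F (1 - (a : F)) = exp (-m) := by
      have hlt : v.valuation F 1 < v.valuation F (a : F) := by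
        rw [map_one, ha, ← exp_zero, exp_lt_exp]; omega
      rw [Valuation.map_sub_swap, Valuation.map_sub_eq_of_lt_left _ hlt, ha]
    have hd : v.valuation F (((unifU v ^ (-m) : Fˣ) : F) * ((1 - (a : F)) * β)) =
        v.valuation F β := by
      rw [map_mul, map_mul, h1, v_unifU_zpow, neg_neg, ← mul_assoc, ← exp_add, add_neg_cancel,
        exp_zero, one_mul]
    rcases Nat.eq_zero_or_pos (shell v β) with h | h
    · rw [ker_pt_small hU A (hd.trans_le (shell_eq_zero_iff.mp h)), radial, h, mul_zero, add_zero]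
      congr 2
      omega
    · rw [ker_pt_shell hU A (hd.trans (valuation_of_shell_pos h)) (by omega)]
      congr 1
      omega
  · -- small multiplier
    have h1 : v.valuation F (1 - (a : F)) = 1 := by
      have hlt : v.valuation F (a : F) < v.valuation F 1 := by
        rw [map_one, ha, ← exp_zero, exp_lt_exp]; omega
      rw [Valuation.map_sub_eq_of_lt_left _ hlt, map_one]
    have hd : v.valuation F (((unifU v ^ (-m) : Fˣ) : F) * ((1 - (a : F)) * β)) =
        exp m * v.valuation F β := by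
      rw [map_mul, map_mul, h1, v_unifU_zpow, neg_neg, one_mul]
    rcases Nat.eq_zero_or_pos (shell v β) with h | h
    · rw [pt_eq_of_val_le hU (β' := 0) (by
        rw [sub_zero, hd, neg_neg]
        exact mul_le_of_le_one_right zero_le (shell_eq_zero_iff.mp h)),
        show (-m) = -((m.natAbs : ℕ) : ℤ) by omega, ker_pt_neg hU A, h, mul_zero, add_zero]
    · rw [ker_pt_shell hU A (e := shell v β + m.natAbs) (by
        rw [hd, valuation_of_shell_pos h, ← exp_add]
        congr 1
        rw [Nat.cast_add]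
        omega) (by omega)]
      congr 1
      omega

include hU in
lemma ker_slice_unit (A : LocKer U v) {a : Fˣ} (ha : v.valuation F (a : F) = exp (-(0 : ℤ))) {D : ℕ}
    (hD : v.valuation F (1 - (a : F)) = exp (-(D : ℤ))) (β : F) :
    A.k ((dG a : G2 F) • pt U v β 0) (pt U v β 0) = radial A (2 * (shell v β - D)) := by
  rw [ker_slice hU A ha, neg_zero, zpow_zero, Units.val_one, one_mul]
  have hd : v.valuation F ((1 - (a : F)) * β) = exp (-(D : ℤ)) * v.valuation F β := by
    rw [map_mul, hD]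
  by_cases h : shell v β ≤ D
  · rw [Nat.sub_eq_zero_of_le h, mul_zero, ker_pt_small hU A ?_]
    · rfl
    rw [hd]
    rcases Nat.eq_zero_or_pos (shell v β) with h0 | h0
    · exact mul_le_one' (by rw [← exp_zero, exp_le_exp]; omega) (shell_eq_zero_iff.mp h0)
    · rw [valuation_of_shell_pos h0, ← exp_add, ← exp_zero, exp_le_exp]
      omega
  · rw [not_le] at h
    rw [ker_pt_shell hU A (e := shell v β - D) (by
      rw [hd, valuation_of_shell_pos (by omega), ← exp_add]
      congr 1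
      omega) (by positivity)]
    congr 1
    omega

include hU in
lemma tsum_slice_shell (g : G2 F ⧸ U.loc v → ℂ) (φ : ℕ → ℂ)
    (hg : ∀ β, g (pt U v β 0) = φ (shell v β)) {E : ℕ} (hφ : ∀ e, E < e → φ e = 0) :
    ∑' c, (Hyp.slice U v).indicator g c = ∑' e, vol v.asIdeal.absNorm e * φ e := by
  classical
  have h := tsum_height hU 0 g φ (fun β => by simpa using hg β) hφ
  rw [pow_zero, one_mul] at h
  rw [← h]
  refine tsum_congr fun c => ?_
  simp [Hyp.slice, Set.indicator_apply]

section Radial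

variable {R : ℕ} {A : LocKer U v}

lemma shifted_sums (h : Sums v.asIdeal.absNorm R (radial A)) (D : ℕ) :
    ∑' e, vol v.asIdeal.absNorm e * radial A (2 * (e - D)) = 0 ∧
      ∑' e : ℕ, (e : ℂ) * (vol v.asIdeal.absNorm e * radial A (2 * (e - D))) = 0 := by
  obtain ⟨N, hN⟩ := h.fin
  have hf : radial A 0 = 0 := h.low 0 (Nat.zero_le R)
  have hs0 := h.sum0 0 (Nat.zero_le R)
  have hs1 := h.sum1 0 (Nat.zero_le R)
  simp only [zero_add] at hs0 hs1
  set q := v.asIdeal.absNorm
  have hsum : ∀ c : ℕ → ℂ, Summable fun e => c e * radial A (2 * (e - D)) := fun c =>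
    summable_of_hasFiniteSupport ((Set.finite_le_nat (N + D)).subset fun e he => by
      by_contra h
      simp only [Set.mem_ofPred_eq, not_le] at h
      exact he (by dsimp only; rw [hN _ (by omega), mul_zero]))
  have htail : ∀ i : ℕ, vol q (i + D) * radial A (2 * (i + D - D)) =
      (q : ℂ) ^ D * (vol q i * radial A (2 * i)) := by
    intro i
    rw [Nat.add_sub_cancel]
    rcases Nat.eq_zero_or_pos i with rfl | hi
    · rw [mul_zero 2, hf]; simp
    · rw [vol, vol, if_neg (by omega), if_neg hi.ne', pow_add]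
      ring
  have hhead : ∀ i ∈ Finset.range D, radial A (2 * (i - D)) = 0 := fun i hi => by
    rw [Nat.sub_eq_zero_of_le (Finset.mem_range.mp hi).le, mul_zero, hf]
  constructor
  · rw [← (hsum fun e => vol q e).sum_add_tsum_nat_add D, tsum_congr htail, tsum_mul_left, hs0,
      mul_zero, add_zero]
    exact Finset.sum_eq_zero fun i hi => by rw [hhead i hi, mul_zero]
  · have hsum' : Summable fun e : ℕ => (e : ℂ) * (vol q e * radial A (2 * (e - D))) :=
      (hsum fun e => (e : ℂ) * vol q e).congr fun e => mul_assoc _ _ _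
    rw [← hsum'.sum_add_tsum_nat_add D, Finset.sum_eq_zero fun i hi => by
      rw [hhead i hi, mul_zero, mul_zero], zero_add]
    have h2 : ∀ i : ℕ, ((i + D : ℕ) : ℂ) * (vol q (i + D) * radial A (2 * (i + D - D))) =
        (q : ℂ) ^ D * ((i : ℂ) * (vol q i * radial A (2 * i))) +
          (q : ℂ) ^ D * (D : ℂ) * (vol q i * radial A (2 * i)) := fun i => by
      rw [htail]; push_cast; ring
    have s1 : Summable fun i : ℕ => (i : ℂ) * (vol q i * radial A (2 * i)) :=
      (h.summable (fun i => (i : ℂ) * vol q i) 0).congr fun i => by rw [zero_add, mul_assoc]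
    have s0 : Summable fun i : ℕ => vol q i * radial A (2 * i) :=
      (h.summable (fun i => vol q i) 0).congr fun i => by rw [zero_add]
    rw [tsum_congr h2, (s1.mul_left _).tsum_add (s0.mul_left _), tsum_mul_left, tsum_mul_left, hs1,
      hs0, mul_zero, mul_zero, add_zero]

include hU in
lemma hyp_sums (h : Sums v.asIdeal.absNorm R (radial A)) (a : Fˣ) (ha : (a : F) ≠ 1)
    (hlog : |log (v.valuation F (a : F))| ≤ R) :
    ∑' c, (Hyp.slice U v).indicator (fun c => A.k ((dG a : G2 F) • c) c) c = 0 ∧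
      ∑' c, (Hyp.slice U v).indicator
        (fun c => (Hyp.lw c : ℂ) * A.k ((dG a : G2 F) • c) c) c = 0 := by
  obtain ⟨N, hN⟩ := h.fin
  set q := v.asIdeal.absNorm
  set m := -log (v.valuation F (a : F)) with hm
  have ham : v.valuation F (a : F) = exp (-m) := by rw [hm, neg_neg, exp_log (by simp)]
  by_cases hm0 : m = 0
  · rw [hm0] at ham
    have hle : v.valuation F (1 - (a : F)) ≤ 1 :=
      ((v.valuation F).map_sub _ _).trans (max_le (by simp) (by rw [ham]; simp))
    have hne : v.valuation F (1 - (a : F)) ≠ 0 := by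
      simpa [sub_eq_zero] using fun h : (1 : F) = a => ha h.symm
    obtain ⟨D, hD⟩ : ∃ D : ℕ, v.valuation F (1 - (a : F)) = exp (-(D : ℤ)) := by
      refine ⟨(-log (v.valuation F (1 - (a : F)))).toNat, ?_⟩
      conv_lhs => rw [← exp_log hne]
      rw [← exp_log hne, ← exp_zero, exp_le_exp] at hle
      congr 1
      omega
    obtain ⟨h0, h1⟩ := shifted_sums h D
    constructor
    · exact (tsum_slice_shell hU (fun c => A.k ((dG a : G2 F) • c) c)
        (fun e => radial A (2 * (e - D))) (ker_slice_unit hU A ham hD) (E := N + D)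
        fun e he => hN _ (by omega)).trans h0
    · rw [tsum_slice_shell hU (fun c => (Hyp.lw c : ℂ) * A.k ((dG a : G2 F) • c) c)
        (fun e => 2 * (Real.log q : ℂ) * ((e : ℂ) * radial A (2 * (e - D))))
        (fun β => by
          rw [ker_slice_unit hU A ham hD, lw_pt_zero]
          push_cast
          ring) (E := N + D) fun e he => by rw [hN _ (by omega), mul_zero, mul_zero]]
      rw [← mul_zero (2 * (Real.log q : ℂ)), ← h1, ← tsum_mul_left]
      exact tsum_congr fun e => by ring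
  · have hmR : m.natAbs ≤ R := by
      have : (m.natAbs : ℤ) ≤ R := by rw [Int.natCast_natAbs, hm, abs_neg]; exact hlog
      exact_mod_cast this
    constructor
    · exact (tsum_slice_shell hU (fun c => A.k ((dG a : G2 F) • c) c)
        (fun e => radial A (m.natAbs + 2 * e)) (ker_slice_shift hU A ham hm0) (E := N)
        fun e he => hN _ (by omega)).trans (h.sum0 _ hmR)
    · rw [tsum_slice_shell hU (fun c => (Hyp.lw c : ℂ) * A.k ((dG a : G2 F) • c) c)
        (fun e => 2 * (Real.log q : ℂ) * ((e : ℂ) * radial A (m.natAbs + 2 * e)))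
        (fun β => by
          rw [ker_slice_shift hU A ham hm0, lw_pt_zero]
          push_cast
          ring) (E := N) fun e he => by rw [hN _ (by omega), mul_zero, mul_zero]]
      rw [← mul_zero (2 * (Real.log q : ℂ)), ← h.sum1 _ hmR, ← tsum_mul_left]
      exact tsum_congr fun e => by ring

variable (A) in
/-- The summand against the unit translation. -/
def uniG (c : G2 F ⧸ U.loc v) : ℂ := (Uni.pw c : ℂ) * A.k ((nB 1 : G2 F) • c) c

include hU in
lemma uniG_pt (n : ℕ) (β : F) (hβ : v.valuation F β ≤ 1) :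
    uniG A (pt U v β (n : ℤ)) = radial A (2 * n) := by
  set q := v.asIdeal.absNorm
  have hqR : (1 : ℝ) < (q : ℝ) := by exact_mod_cast HeightOneSpectrum.one_lt_absNorm v
  have hpw : Uni.pw (pt U v β (n : ℤ)) = 1 := by
    have h1 : 1 ≤ (q : ℝ) ^ (n : ℤ) := one_le_zpow₀ hqR.le (by positivity)
    have h2 : absV v β ≤ 1 := (absV_le_one_iff v β).mpr hβ
    have h3 : max ((q : ℝ) ^ (-(n : ℤ))) (absV v β) ≤ 1 := by
      refine max_le ?_ h2
      rw [_root_.zpow_neg]
      exact inv_le_one_of_one_le₀ h1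
    rw [Uni.pw, locM_e1_pt, locM_e0_pt, max_eq_left h1, min_eq_left h1, if_pos]
    rw [show ∀ a b : ℝ, a * (b ^ 2 * a) = a ^ 2 * b ^ 2 from fun a b => by ring]
    exact mul_le_of_le_one_right (sq_nonneg _)
      (pow_le_one₀ (le_max_of_le_right (AbsoluteValue.nonneg _ _)) h3)
  show (Uni.pw (pt U v β (n : ℤ)) : ℂ) * _ = _
  rw [hpw, Complex.ofReal_one, one_mul, nB_smul_pt,
    ← A.inv (dG (unifU v ^ (-(n : ℤ))) * nB (-β)), mul_smul, mul_smul, nB_smul_pt, nB_smul_pt,
    neg_add_cancel, dG_unif_smul_pt, dG_unif_smul_pt, mul_zero, neg_add_cancel,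
    show -β + (1 + β) = 1 by ring, mul_one]
  set x := ((unifU v ^ (-(n : ℤ)) : Fˣ) : F)
  rw [← A.inv (nB (-x)), nB_smul_pt, nB_smul_pt, neg_add_cancel, ← base_eq_pt, add_zero]
  have hx : v.valuation F (-x) = exp (n : ℤ) := by
    rw [Valuation.map_neg, v_unifU_zpow, neg_neg]
  rw [ker_pt_shell hU A hx (by positivity)]
  congr 1
  omega

include hU in
lemma exists_of_uniG_ne_zero (hf : radial A 0 = 0) {N : ℕ} (hN : ∀ n, N < n → radial A n = 0)
    {c : G2 F ⧸ U.loc v} (hc : uniG A c ≠ 0) :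
    ∃ n ≤ N, ∃ β : F, v.valuation F β ≤ 1 ∧ c = pt U v β (n : ℤ) := by
  contrapose! hc
  set q := v.asIdeal.absNorm
  have hqR : (1 : ℝ) < (q : ℝ) := by exact_mod_cast HeightOneSpectrum.one_lt_absNorm v
  have hq0 : (0 : ℝ) < (q : ℝ) := zero_lt_one.trans hqR
  obtain ⟨β, m, rfl⟩ := exists_pt hU c
  by_cases hp : Uni.pw (pt U v β m) = 0
  · simp [uniG, hp]
  have hle := Uni.le_of_pw_ne_zero hp
  rw [locM_e1_pt, locM_e0_pt] at hle
  rcases lt_or_ge m 0 with hm | hm
  · have hz1 : (q : ℝ) ^ m ≤ 1 := zpow_le_one_of_nonpos₀ hqR.le hm.le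
    rw [max_eq_right hz1, one_pow] at hle
    have hzp : 0 < (q : ℝ) ^ m := zpow_pos hq0 m
    have hβ : absV v β ≤ (q : ℝ) ^ (-m) := by
      have : (max ((q : ℝ) ^ (-m)) (absV v β) * (q : ℝ) ^ m) ^ 2 ≤ 1 := by
        refine le_trans (le_of_eq ?_) hle
        ring
      rw [pow_le_one_iff_of_nonneg (mul_nonneg (le_max_of_le_right (AbsoluteValue.nonneg _ _))
        hzp.le) two_ne_zero, ← le_div_iff₀ hzp, one_div, ← _root_.zpow_neg] at this
      exact (le_max_right _ _).trans this
    rw [← absV_unif] at hβ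
    rw [Uni.absV_le_absV_iff β (Units.ne_zero _), v_unifU_zpow] at hβ
    have e : (nB (1 : F) : G2 F) • pt U v β m = pt U v β m := by
      rw [nB_smul_pt]
      refine pt_eq_of_val_le hU ?_
      rw [add_sub_cancel_right, map_one, ← exp_zero, exp_le_exp]
      omega
    show (Uni.pw (pt U v β m) : ℂ) * _ = _
    rw [e]
    obtain ⟨g, hg⟩ := QuotientGroup.mk_surjective (pt U v β m)
    rw [← hg, ← A.inv g⁻¹, MulAction.Quotient.smul_mk, smul_eq_mul, inv_mul_cancel, base_eq_pt]
    rw [show A.k (pt U v 0 0) (pt U v 0 0) = radial A 0 by rw [radial, base_eq_pt]; rfl, hf,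
      mul_zero]
  · obtain ⟨n, rfl⟩ := Int.eq_ofNat_of_zero_le hm
    have h1 : 1 ≤ (q : ℝ) ^ (n : ℤ) := one_le_zpow₀ hqR.le (by positivity)
    rw [max_eq_left h1] at hle
    have hβ : v.valuation F β ≤ 1 := by
      rw [← absV_le_one_iff]
      refine (le_max_right ((q : ℝ) ^ (-(n : ℤ))) _).trans ?_
      have hzp : 0 < (q : ℝ) ^ (n : ℤ) := zpow_pos hq0 _
      have h2 : max ((q : ℝ) ^ (-(n : ℤ))) (absV v β) ^ 2 ≤ 1 := by
        refine le_of_mul_le_mul_right ?_ (pow_pos hzp 2)
        rw [one_mul]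
        refine le_trans (le_of_eq ?_) hle
        ring
      rwa [pow_le_one_iff_of_nonneg (le_max_of_le_right (AbsoluteValue.nonneg _ _)) two_ne_zero]
        at h2
    rw [uniG_pt hU n β hβ]
    refine hN _ ?_
    by_contra hle'
    exact hc n (by omega) β hβ rfl

include hU in
lemma finite_uniG (hf : radial A 0 = 0) {N : ℕ} (hN : ∀ n, N < n → radial A n = 0) :
    (Function.support (uniG A)).Finite := by
  refine ((Finset.range (N + 1)).finite_toSet.biUnion fun (n : ℕ) _ =>
    ((Cusp.chainV v).finite_image_mk (m := 0) (n := n) (Int.natCast_nonneg n)).image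
      (ptQ U v n)).subset fun c hc => ?_
  obtain ⟨n, hn, β, hβ, rfl⟩ := exists_of_uniG_ne_zero hU hf hN hc
  exact Set.mem_biUnion (x := n) (Finset.mem_range.mpr (by omega))
    ⟨_, ⟨β, (Cusp.mem_chainV v).2 (by simpa using hβ), rfl⟩, ptQ_mk hU _ β⟩

open Classical in
include hU in
lemma tsum_uniG (hf : radial A 0 = 0) {N : ℕ} (hN : ∀ n, N < n → radial A n = 0)
    (w : G2 F ⧸ U.loc v → ℂ) (φ : ℕ → ℂ)
    (hw : ∀ (n : ℕ) (β : F), w (pt U v β (n : ℤ)) = φ n) :
    ∑' c, w c * uniG A c =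
      (1 - (v.asIdeal.absNorm : ℂ)⁻¹)⁻¹ *
        ∑' e, φ e * (vol v.asIdeal.absNorm e * radial A (2 * e)) := by
  have hq1 : (1 : ℂ) - (v.asIdeal.absNorm : ℂ)⁻¹ ≠ 0 := by
    rw [sub_ne_zero, ne_comm, inv_ne_one]
    exact_mod_cast (HeightOneSpectrum.one_lt_absNorm v).ne'
  have hfin := finite_uniG hU hf hN
  have hsplit : ∀ c, w c * uniG A c = ∑ n ∈ Finset.range (N + 1),
      if locM v e1 c = (v.asIdeal.absNorm : ℝ) ^ (n : ℤ) then w c * uniG A c else 0 := fun c => by
    by_cases h : uniG A c = 0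
    · simp [h]
    obtain ⟨n, hn, β, -, rfl⟩ := exists_of_uniG_ne_zero hU hf hN h
    rw [Finset.sum_eq_single n (fun m _ hm => if_neg fun e =>
      hm (Nat.cast_inj.1 (zpow_absNorm_inj ((locM_e1_pt β _).symm.trans e))).symm)
      fun h => absurd (Finset.mem_range.mpr (by omega)) h, if_pos (locM_e1_pt β _)]
  rw [tsum_congr hsplit, Summable.tsum_finsetSum fun n _ => summable_of_hasFiniteSupport
      (hfin.subset fun c hc => right_ne_zero_of_mul (ite_ne_right_iff.mp hc).2),
    tsum_eq_sum (s := Finset.range (N + 1)) fun e he => by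
      rw [hN _ (by simp at he; omega), mul_zero, mul_zero],
    Finset.mul_sum]
  refine Finset.sum_congr rfl fun n _ => ?_
  rw [tsum_height hU n (fun c => w c * uniG A c)
      (fun e => if e = 0 then φ n * radial A (2 * n) else 0) (fun β => ?_) (E := 0)
      (fun e he => if_neg he.ne'), tsum_eq_single 0 fun e he => by rw [if_neg he, mul_zero],
    if_pos rfl, vol, if_pos rfl, one_mul]
  swap
  · split_ifs with h
    · rw [hw, uniG_pt hU n β (shell_eq_zero_iff.mp h)]
    refine mul_eq_zero_of_right _ (by_contra fun hne => h (shell_eq_zero_iff.mpr ?_))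
    obtain ⟨m, -, β', hβ', e⟩ := exists_of_uniG_ne_zero hU hf hN hne
    obtain ⟨-, hd⟩ := (pt_eq_iff hU).mp e
    rw [← sub_add_cancel β β']
    exact (Valuation.map_add _ _ _).trans
      (max_le (hd.trans (by rw [← exp_zero, exp_le_exp]; omega)) hβ')
  rcases Nat.eq_zero_or_pos n with rfl | hn
  · rw [mul_zero 2, hf]; simp
  · rw [vol, if_neg hn.ne', show (1 - (v.asIdeal.absNorm : ℂ)⁻¹)⁻¹ *
      (φ n * ((1 - (v.asIdeal.absNorm : ℂ)⁻¹) * (v.asIdeal.absNorm : ℂ) ^ n * radial A (2 * n))) =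
      ((1 - (v.asIdeal.absNorm : ℂ)⁻¹)⁻¹ * (1 - (v.asIdeal.absNorm : ℂ)⁻¹)) *
      ((v.asIdeal.absNorm : ℂ) ^ n * (φ n * radial A (2 * n))) by ring,
      inv_mul_cancel₀ hq1, one_mul]

include hU in
/-- Radial kernels with vanishing sums are flat. -/
theorem flatKer_of_sums (h : Sums v.asIdeal.absNorm R (radial A)) : FlatKer R A := by
  classical
  obtain ⟨N, hN⟩ := h.fin
  have hf : radial A 0 = 0 := h.low 0 (Nat.zero_le R)
  have hs0 := h.sum0 0 (Nat.zero_le R)
  have hs1 := h.sum1 0 (Nat.zero_le R)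
  simp only [zero_add] at hs0 hs1
  refine ⟨hyp_sums hU h,
    (finite_uniG hU hf hN).subset fun c hc =>
      mul_ne_zero (Complex.ofReal_ne_zero.mpr hc.1) hc.2, ?_, ?_⟩
  · have := tsum_uniG hU hf hN (fun _ => 1) (fun _ => 1) (fun _ _ => rfl)
    simp only [one_mul] at this
    exact this.trans (by rw [hs0, mul_zero])
  · refine (tsum_uniG hU hf hN (fun c => (Real.log (locM v e1 c) : ℂ))
      (fun n => (n : ℂ) * (Real.log v.asIdeal.absNorm : ℂ)) (fun n β => ?_)).trans ?_
    · rw [locM_e1_pt, zpow_natCast, Real.log_pow]; push_cast; rfl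
    rw [tsum_congr fun e : ℕ => show (e : ℂ) * (Real.log v.asIdeal.absNorm : ℂ) *
      (vol v.asIdeal.absNorm e * radial A (2 * e)) = (Real.log v.asIdeal.absNorm : ℂ) *
        ((e : ℂ) * (vol v.asIdeal.absNorm e * radial A (2 * e))) by ring, tsum_mul_left, hs1,
      mul_zero, mul_zero]

lemma radial_sph (φ : ℕ →₀ ℂ) (n : ℕ) : radial (Cusp.sph hU φ) n = φ n := by
  have h := Cusp.sph_k_upper hU φ (unifU v ^ (n : ℤ)) 0
  rw [Cusp.distGL_upper (n := (n : ℤ)) (m := 0) (v_unifU_zpow v n) (by simp) le_rfl (by omega)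
    (Or.inl (by omega))] at h
  have hn : (2 * (0 : ℤ) + (n : ℤ)).toNat = n := by omega
  rw [hn] at h
  rw [← h, radial, pt_zero, MulAction.Quotient.smul_mk, smul_eq_mul, mul_one]
  congr 2
  rw [dG, show uB (0 : F) = 1 by ext i j; fin_cases i <;> fin_cases j <;> simp, one_mul]

/-- The radial kernel of a flat profile is flat. -/
theorem flatKer_sph {c : ℕ →₀ ℝ} (hc : Spec.Flat R c) {φ : ℕ →₀ ℂ}
    (hφ : ∀ n, φ n = (c n : ℂ) * (((Real.sqrt v.asIdeal.absNorm)⁻¹ ^ n : ℝ) : ℂ)) :
    FlatKer R (Cusp.sph hU φ) :=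
  flatKer_of_sums hU (sums_of_flat (HeightOneSpectrum.one_lt_absNorm v) hc fun n => by
    rw [radial_sph hU, hφ])

end Radial

end FermatAgent.LT2.Geo
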