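import Mathlib
import Fermat.Agent.LT.Descent.GlueingExports
import Fermat.Agent.LT2.Glue.Split
import Fermat.Agent.LT2.Glue.Inert
import Fermat.Agent.LT2.Cusp.Split

/-!
# Absolute values and heights above the places of the base

Absolute values along the extension at deep levels, heights of the transported cosets, and the
coordinates at a split place in the form used for diagonal classes.
-/

set_option autoImplicit false

noncomputable section

open Matrix IsDedekindDomain NumberField
open scoped MatrixGroups

namespace FermatAgent.LT2.Geo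

open FermatAgent.LT
open FermatAgent.LT.TwistCtx (Fam Pt incl ft actFam KerPair)

variable {K L : Type*} [Field K] [NumberField K] [Field L] [NumberField L] [Algebra K L]
  {C : Ctx K L} {v : HeightOneSpectrum (𝓞 K)}

/-- A split fibre has the three listed places. -/
lemma univ_fib [DecidableEq (C.Fib v)] (u : C.Fib v) :
    (Finset.univ : Finset (C.Fib v)) = {u, C.next u, C.next (C.next u)} := by
  ext u'
  simpa using Ctx.fib_cases u u'

/-- A split fibre has three places. -/
lemma card_fib (hv : C.IsSplit v) : Fintype.card (C.Fib v) = 3 := by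
  classical
  obtain ⟨w, hw⟩ := C.exists_over v
  set u : C.Fib v := ⟨w, hw⟩
  rw [← Finset.card_univ, univ_fib u, Finset.card_insert_of_notMem, Finset.card_pair]
  · exact (Ctx.next_ne hv (C.next u)).symm
  · simp [(Ctx.next_ne hv u).symm, (Ctx.next_next_ne hv u).symm]

lemma absV_tau (u : C.Fib v) (y : L) : absV u.1 (C.τ y) = absV (C.prev u).1 y :=
  (congrArg (fun w => absV w (C.τ y)) ((placeMap C.τ).apply_symm_apply u.1).symm).trans
    (absV_placeMap _ _ _)

variable [IsTotallyComplex K] [IsTotallyComplex L] [IsPrincipalIdealRing (𝓞 K)]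

omit [IsTotallyComplex K] [IsTotallyComplex L] [IsPrincipalIdealRing (𝓞 K)] in
/-- Split places above keep the absolute value. -/
theorem absV_split (hv : C.IsSplit v) (u : C.Fib v) (x : K) :
    absV u.1 (algebraMap K L x) = absV v x :=
  C.absV_of_split hv u x

/-- A fixed place cubes the absolute value. -/
theorem absV_fixed (u : C.Fib v) (hu : placeMap C.τ u.1 = u.1) (x : K) :
    absV u.1 (algebraMap K L x) = absV v x ^ 3 := by
  classical
  rw [← TwistCtx.prod_absV_fib (B := C.B) C.exists_over C.pair (v := v) x, Finset.prod_eq_single u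
    (fun u' _ h => absurd (C.subsingleton_fib hu u') h) fun h => absurd (Finset.mem_univ _) h]

/-- At every place above, the absolute value is a fixed power of the one below. -/
theorem exists_exp (u : C.Fib v) :
    ∃ e : ℕ, 0 < e ∧ ∀ x : K, absV u.1 (algebraMap K L x) = absV v x ^ e := by
  by_cases hv : C.IsSplit v
  · exact ⟨1, one_pos, fun x => (absV_split hv u x).trans (pow_one _).symm⟩
  · obtain ⟨u', hu⟩ := C.exists_fixed' hv
    obtain rfl := C.subsingleton_fib hu u
    exact ⟨3, three_pos, absV_fixed u hu⟩

/-- The image of a vector above. -/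
def upVec (ξ : Fin 2 → K) : Fin 2 → L := fun i => algebraMap K L (ξ i)

omit [IsTotallyComplex K] [IsTotallyComplex L] [IsPrincipalIdealRing (𝓞 K)]

omit [NumberField K] [NumberField L] in
/-- The lifted first vector. -/
lemma upVec_e1 : upVec (L := L) (e1 : Fin 2 → K) = e1 := by
  ext i; fin_cases i <;> simp [upVec, e1]

omit [NumberField K] [NumberField L] in
/-- The lifted second vector. -/
lemma upVec_e0 : upVec (L := L) (e0 : Fin 2 → K) = e0 := by
  ext i; fin_cases i <;> simp [upVec, e0]

/-- Local sizes transform under the generator. -/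
lemma locM_sg' (u : C.Fib v) (η : Fin 2 → L) (c : G2 L ⧸ C.UL.loc (C.prev u).1) :
    locM u.1 (fun i => C.τ (η i)) (C.sg u c) = locM (C.prev u).1 η c := by
  induction c using QuotientGroup.induction_on with | H g =>
  induction g using Matrix.ProjGenLinGroup.induction_on with | mk g =>
  rw [C.sg_mk, g2Map, ProjGenLinGroup.map_mk, locM_mk, locM_mk]
  have hV : ∀ i, ((fun i => C.τ (η i)) ᵥ* (GeneralLinearGroup.map (C.τ : L →+* L) g).val) i =
      C.τ ((η ᵥ* g.val) i) := fun i => by
    simp [Matrix.vecMul, dotProduct, Fin.sum_univ_two]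
  simp only [locMGL, vecAbs, hV, LT.det_map, RingHom.coe_coe, absV_tau]

/-- Local sizes of base vectors transform under the generator. -/
lemma locM_sg (u : C.Fib v) (ξ : Fin 2 → K) (c : G2 L ⧸ C.UL.loc (C.prev u).1) :
    locM u.1 (upVec ξ) (C.sg u c) = locM (C.prev u).1 (upVec ξ) c := by
  have h := locM_sg' u (upVec ξ) c
  rwa [show (fun i => C.τ (upVec (L := L) ξ i)) = upVec ξ from
    funext fun i => C.twist.fix (ξ i)] at h

/-- Local sizes above are powers of those below. -/
lemma locM_up_pow (u : C.Fib v) {e : ℕ}
    (he : ∀ x : K, absV u.1 (algebraMap K L x) = absV v x ^ e) (ξ : Fin 2 → K) (z : Pt C.X v) :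
    locM u.1 (upVec ξ) (C.up u z) = locM v ξ z ^ e := by
  induction z using QuotientGroup.induction_on with | H g =>
  induction g using Matrix.ProjGenLinGroup.induction_on with | mk g =>
  rw [C.up_mk, incl, g2Map, ProjGenLinGroup.map_mk, locM_mk, locM_mk]
  have hV : ∀ i, (upVec ξ ᵥ* (GeneralLinearGroup.map (algebraMap K L) g).val) i =
      algebraMap K L ((ξ ᵥ* g.val) i) := fun i => by
    simp [upVec, Matrix.vecMul, dotProduct, Fin.sum_univ_two]
  have hmax : ∀ a b : ℝ, 0 ≤ a → 0 ≤ b → max (a ^ e) (b ^ e) = max a b ^ e := fun a b ha hb => by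
    rcases le_total a b with h | h
    · rw [max_eq_right h, max_eq_right (pow_le_pow_left₀ ha h e)]
    · rw [max_eq_left h, max_eq_left (pow_le_pow_left₀ hb h e)]
  simp only [locMGL, vecAbs, hV, LT.det_map, he,
    hmax _ _ (AbsoluteValue.nonneg _ _) (AbsoluteValue.nonneg _ _)]
  rw [div_pow, ← pow_mul, ← pow_mul, mul_comm]

variable {D : C.Bad} (S : Ctx.Sys D) {γ : G2 L} {δ : G2 K}

open Classical in
/-- Coordinates at a split place. -/
def splitAt (hv : C.IsSplit v) (hN : tnrm C.τ γ = incl δ) : Hyp.SplitAt S.P γ δ v where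
  iota := C.up
  iota_mk _ _ := rfl
  iota_bij := C.up_bijective hv
  norm_eq := absV_split hv
  card_eq := card_fib hv
  sum_x u z := by
    rw [← (Ctx.locGlue_split hv S hN ⊥ u).sum_x z]
    exact tsum_congr fun x => by
      unfold Ctx.splitA
      split_ifs <;> simp [KerPair.loc]

end FermatAgent.LT2.Geo
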