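import Mathlib
import Fermat.Agent.LT2.Glue.Rep
import Fermat.Agent.LT2.Geo.Places

/-!
# Gluing data with weights on boundedly many translates

Every representative has gluing data whose weight at a chosen split place picks a chosen coordinate
and whose weights everywhere sit, at one place above, on boundedly many translates of the base by
an element commuting with the matrix.
-/

set_option autoImplicit false

noncomputable section

open Matrix IsDedekindDomain NumberField Filter
open scoped MatrixGroups Pointwise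

namespace FermatAgent.LT2.Geo

open FermatAgent.LT
open FermatAgent.LT.TwistCtx (Fam Pt incl ft actFam KerPair)

variable {K L : Type*} [Field K] [NumberField K] [Field L] [NumberField L] [Algebra K L]
  {C : Ctx K L}

/-- The weights sit at one place above on boundedly many translates of the base by an element
commuting with the matrix. -/
def LinkAt (δ : GL (Fin 2) K) (v : HeightOneSpectrum (𝓞 K))
    (A : Fam C.B v → Pt C.X v → ℝ) : Prop :=
  ∃ (u : C.Fib v) (t : GL (Fin 2) L) (Q : Finset (G2 L)), Commute t (upGL δ) ∧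
    ∀ x z, A x z ≠ 0 → ∀ g : G2 K, QuotientGroup.mk g = z →
      ∃ q ∈ Q, x u = QuotientGroup.mk (ProjGenLinGroup.mk t * incl (K := K) (L := L) g * q)

variable {v : HeightOneSpectrum (𝓞 K)} {δ : GL (Fin 2) K}

lemma linkAt_split (u : C.Fib v) : LinkAt δ v (C.splitA u) := by
  classical
  refine ⟨u, 1, {1}, Commute.one_left _, fun x z hne g hg => ⟨1, Finset.mem_singleton_self _, ?_⟩⟩
  simp only [Ctx.splitA, ne_eq, ite_eq_right_iff, one_ne_zero, imp_false, not_not] at hne
  rw [hne, ← hg, C.up_mk, map_one, one_mul, mul_one]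

lemma linkAt_of_explicit {A : Fam C.B v → Pt C.X v → ℝ} (h : C.ExplicitAt δ A) :
    LinkAt δ v A := by
  obtain ⟨t, Q, htc, hQ⟩ := h
  obtain ⟨w, hw⟩ := C.exists_over v
  exact ⟨⟨w, hw⟩, t, Q, htc, fun x z hne g hg => hQ x z hne g hg _⟩

variable {D : C.Bad} (S : Ctx.Sys D) {γ : GL (Fin 2) L}

/-- Gluing data of a representative with linked weights, picking a coordinate at a split place. -/
theorem exists_glue {v₀ : HeightOneSpectrum (𝓞 K)} (hs : C.IsSplit v₀) (u₀ : C.Fib v₀)
    (hδ : (ProjGenLinGroup.mk δ : G2 K) ≠ 1) (hγ : IsRep C.τ δ γ) :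
    ∃ G : TwistCtx.Glue S.P (ProjGenLinGroup.mk γ) (ProjGenLinGroup.mk δ) (torus δ),
      G.lift = C.liftFam ∧ G.A v₀ = C.splitA u₀ ∧ ∀ v, LinkAt δ v (G.A v) := by
  classical
  let pick : ∀ v, C.Fib v :=
    Function.update (fun v => ⟨(C.exists_over v).choose, (C.exists_over v).choose_spec⟩) v₀ u₀
  obtain ⟨G, hG, hlift⟩ := Ctx.exists_glue_of_local' S (torus δ) hγ.tnrm_eq
    (fun g hg => C.twist.map_torus_le_tcent hδ hγ ⟨g, hg, rfl⟩)
    (fun g hg => by
      rw [mul_inv_eq_iff_eq_mul]
      exact Subgroup.mem_centralizer_singleton_iff.mp (torus_le_centralizer δ hg))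
    (eventually_cofinite.mp (Ctx.eventually_good hδ hγ)).toFinset (fun v hv => by simpa using hv)
    (fun v A => LinkAt δ v A ∧ (C.IsSplit v → A = C.splitA (pick v)))
    fun v => by
      obtain ⟨A, hA, hsp, hE⟩ := Ctx.exists_local S hδ hγ v (pick v)
      refine ⟨A, hA, ?_, hsp⟩
      by_cases h : C.IsSplit v
      · rw [hsp h]; exact linkAt_split _
      · exact linkAt_of_explicit (hE h)
  refine ⟨G, hlift, ?_, fun v => (hG v).1⟩
  rw [(hG v₀).2 hs]
  simp [pick]

end FermatAgent.LT2.Geo
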