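import Mathlib
import Fermat.Agent.LT.Descent.Hyp.Diag
import Fermat.Agent.LT.Descent.Uni.Local
import Fermat.Agent.LT2.Geo.Link

/-!
# Heights on the supports of the products above a place

Where a product of local kernels does not vanish at the twist of a family, the heights of each
coordinate and of its translate by the norm differ boundedly, uniformly in the element.
-/

set_option autoImplicit false

noncomputable section

open Matrix IsDedekindDomain NumberField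
open scoped MatrixGroups

namespace FermatAgent.LT2.Geo

open FermatAgent.LT
open FermatAgent.LT.Whit (nB dG)
open FermatAgent.LT.TwistCtx (Fam Pt incl ft actFam KerPair)

section Local

variable {F : Type*} [Field F] [NumberField F] {U : Level F} {w : HeightOneSpectrum (𝓞 F)}

/-- The heights of two cosets differ by at most a factor. -/
def Ratio (C' : ℝ) (c d : G2 F ⧸ U.loc w) : Prop :=
  ∀ ξ : Fin 2 → F, locM w ξ d ≤ C' * locM w ξ c ∧ locM w ξ c ≤ C' * locM w ξ d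

lemma locM_nonneg (ξ : Fin 2 → F) (c : G2 F ⧸ U.loc w) : 0 ≤ locM w ξ c := by
  induction c using QuotientGroup.induction_on with | H h =>
  induction h using Matrix.ProjGenLinGroup.induction_on with | mk h =>
  rw [locM_mk]
  exact div_nonneg (sq_nonneg _) (AbsoluteValue.nonneg _ _)

lemma Ratio.trans {C₁ C₂ : ℝ} (h1 : 0 ≤ C₁) (h2 : 0 ≤ C₂) {c d e : G2 F ⧸ U.loc w}
    (hcd : Ratio C₁ c d) (hde : Ratio C₂ d e) : Ratio (C₁ * C₂) c e := fun ξ => by
  constructor
  · refine (hde ξ).1.trans ((mul_le_mul_of_nonneg_left (hcd ξ).1 h2).trans (le_of_eq ?_))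
    ring
  · refine (hcd ξ).2.trans ((mul_le_mul_of_nonneg_left (hde ξ).2 h1).trans (le_of_eq ?_))
    ring

lemma Ratio.mono {C₁ C₂ : ℝ} (hC : C₁ ≤ C₂) {c d : G2 F ⧸ U.loc w} (h : Ratio C₁ c d) :
    Ratio C₂ c d := fun ξ =>
  ⟨(h ξ).1.trans (mul_le_mul_of_nonneg_right hC (locM_nonneg _ _)),
    (h ξ).2.trans (mul_le_mul_of_nonneg_right hC (locM_nonneg _ _))⟩

/-- A bounded ratio under a diagonal element bounds its absolute value. -/
lemma Ratio.absV_le {C' : ℝ} {c : G2 F ⧸ U.loc w} {α : Fˣ}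
    (h : Ratio C' c ((dG α : G2 F) • c)) :
    absV w (α : F) ≤ C' ∧ (absV w (α : F))⁻¹ ≤ C' := by
  obtain ⟨h1, h2⟩ := h e1
  rw [Hyp.locM_e1_dG] at h1 h2
  have hH := Uni.locM_pos_e1 c
  have ha : 0 < absV w (α : F) := AbsoluteValue.pos _ α.ne_zero
  constructor
  · rw [← mul_div_assoc, le_div_iff₀ ha, mul_comm] at h2
    exact le_of_mul_le_mul_right h2 hH
  · refine le_of_mul_le_mul_right ?_ hH
    rwa [mul_comm, ← div_eq_mul_inv]

/-- A bounded ratio under a diagonal element other than one bounds the two heights. -/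
lemma Ratio.heights_le {C' : ℝ} (hC : 1 ≤ C') {c : G2 F ⧸ U.loc w} {α : Fˣ} (hα : (α : F) ≠ 1)
    (h : Ratio C' c ((dG α : G2 F) • c)) :
    locM w e1 c * locM w e0 c ≤ max 1 (C' ^ 2 / absV w ((α : F)⁻¹ - 1) ^ 2) := by
  obtain ⟨s, hs⟩ := Uni.exists_dual c
  set H := locM w e1 c
  have hH : 0 < H := Uni.locM_pos_e1 c
  set m := locM w (Uni.line s) c
  have hm0 : 0 ≤ m := locM_nonneg _ _
  have hvec : (Uni.line s : Fin 2 → F) ᵥ* (LT.dB α).val = (α : F) • Uni.line (s / α) := by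
    funext i
    fin_cases i <;> simp [Uni.line, Matrix.vecMul, dotProduct, Fin.sum_univ_two, mul_div_cancel₀]
  obtain ⟨h1, -⟩ := h (Uni.line s)
  rw [locM_smul, hvec, Hyp.locM_smul_vec] at h1
  simp only [LT.dB_val, Matrix.det_fin_two_of, mul_one, mul_zero, sub_zero] at h1
  have ha : 0 < absV w (α : F) := AbsoluteValue.pos _ α.ne_zero
  obtain ⟨-, ha'⟩ := h.absV_le
  have h2 : locM w (Uni.line (s / α)) c ≤ C' ^ 2 * m := by
    rw [sq (absV w (α : F)), mul_assoc, mul_div_assoc, ← mul_comm_div, div_self ha.ne', one_mul]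
      at h1
    calc locM w (Uni.line (s / α)) c
        = (absV w (α : F))⁻¹ * (absV w (α : F) * locM w (Uni.line (s / α)) c) := by
          rw [inv_mul_cancel_left₀ ha.ne']
      _ ≤ C' * (C' * m) := mul_le_mul ha' h1 (mul_nonneg ha.le (locM_nonneg _ _)) (by linarith)
      _ = C' ^ 2 * m := by ring
  have hb : (α : F)⁻¹ - 1 ≠ 0 := sub_ne_zero.mpr fun e => hα (inv_eq_one.mp e)
  set δ' := absV w ((α : F)⁻¹ - 1)
  have hδ : 0 < δ' := AbsoluteValue.pos _ hb
  have h3 : absV w s ^ 2 * δ' ^ 2 * H ≤ C' ^ 2 * m := by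
    rw [← mul_pow, ← map_mul, ← Hyp.locM_smul_vec, show (s * ((α : F)⁻¹ - 1)) • (e1 : Fin 2 → F) =
      Uni.line (s / α) + -Uni.line s by
        funext i; fin_cases i <;> simp [e1, Uni.line]; ring]
    refine (Uni.locM_add_le _ _ c).trans (max_le h2 ?_)
    rw [Uni.locM_neg]
    exact le_mul_of_one_le_left hm0 (one_le_pow₀ hC)
  have h4 : locM w e0 c ≤ max m (absV w s ^ 2 * H) := by
    rw [show (e0 : Fin 2 → F) = Uni.line s + -(s • e1) by
      funext i; fin_cases i <;> simp [e1, e0, Uni.line]]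
    refine (Uni.locM_add_le _ _ c).trans ?_
    rw [Uni.locM_neg, Hyp.locM_smul_vec]
  refine (mul_le_mul_of_nonneg_left h4 hH.le).trans ?_
  rw [mul_max_of_nonneg _ _ hH.le]
  refine max_le_max (by rw [mul_comm]; exact hs.le) ?_
  rw [le_div_iff₀ (pow_pos hδ 2)]
  calc H * (absV w s ^ 2 * H) * δ' ^ 2 = H * (absV w s ^ 2 * δ' ^ 2 * H) := by ring
    _ ≤ H * (C' ^ 2 * m) := mul_le_mul_of_nonneg_left h3 hH.le
    _ = C' ^ 2 := by rw [show H * (C' ^ 2 * m) = C' ^ 2 * (m * H) by ring, hs, mul_one]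

/-- A bounded ratio under the unit translation bounds the bottom height. -/
lemma Ratio.e1_le {C' : ℝ} (hC : 1 ≤ C') {c : G2 F ⧸ U.loc w}
    (h : Ratio C' c ((nB 1 : G2 F) • c)) : locM w e1 c ≤ C' :=
  Uni.locM_e1_le_of_ratio hC fun ξ => (h ξ).1

end Local

variable {K L : Type*} [Field K] [NumberField K] [Field L] [NumberField L] [Algebra K L]
  {C : Ctx K L} {v : HeightOneSpectrum (𝓞 K)}

/-- The twist keeps a bounded ratio. -/
lemma ratio_ft (γ : G2 L) {x y : Fam C.B v} {Ck : C.Fib v → ℝ}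
    (h : ∀ u, Ratio (Ck u) (x u) (y u)) (u : C.Fib v) :
    Ratio (Ck (C.prev u)) (ft C.B γ v x u) (ft C.B γ v y u) := by
  intro ξ
  obtain ⟨g, rfl⟩ := ProjGenLinGroup.mk_surjective γ
  rw [C.ft_apply, C.ft_apply, locM_smul, locM_smul]
  set η : Fin 2 → L := fun i => C.τ.symm ((ξ ᵥ* g.val) i)
  have hη : ξ ᵥ* g.val = fun i => C.τ (η i) := funext fun i => (C.τ.apply_symm_apply _).symm
  rw [hη, locM_sg', locM_sg', ← mul_div_assoc, ← mul_div_assoc]
  exact ⟨div_le_div_of_nonneg_right (h (C.prev u) η).1 (AbsoluteValue.nonneg _ _),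
    div_le_div_of_nonneg_right (h (C.prev u) η).2 (AbsoluteValue.nonneg _ _)⟩

lemma prev_prev_prev (u : C.Fib v) : C.prev (C.prev (C.prev u)) = u := by
  rw [Ctx.prev_eq_next_next (C.prev u), Ctx.prev_eq_next_next (C.next _)]
  refine Subtype.ext ?_
  show placeMap C.τ (placeMap C.τ (placeMap C.τ (placeMap C.τ (C.prev u).1))) = _
  rw [C.twist.placeMap_cube]
  exact (placeMap C.τ).apply_symm_apply u.1

/-- Three twists act as the norm. -/
lemma ft_cube {γ : G2 L} {δ : G2 K} (hN : tnrm C.τ γ = incl δ) (x : Fam C.B v) :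
    ft C.B γ v (ft C.B γ v (ft C.B γ v x)) = actFam C.B δ x := by
  funext u
  have key : ∀ (u' : C.Fib v) (g : G2 L), u' = u → x u' = QuotientGroup.mk g →
      x u = QuotientGroup.mk g := by
    rintro u' g rfl e; exact e
  obtain ⟨g, hg⟩ := QuotientGroup.mk_surjective (x (C.prev (C.prev (C.prev u))))
  show _ = incl (K := K) (L := L) δ • x u
  rw [key _ g (prev_prev_prev u) hg.symm, C.ft_apply, C.ft_apply, C.ft_apply, ← hg, C.sg_mk,
    MulAction.Quotient.smul_mk, C.sg_mk, MulAction.Quotient.smul_mk, C.sg_mk,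
    MulAction.Quotient.smul_mk, MulAction.Quotient.smul_mk, smul_eq_mul, smul_eq_mul, smul_eq_mul,
    smul_eq_mul, map_mul, map_mul, map_mul, C.twist.toCyc3.g2Map_cube, ← hN, tnrm]
  simp only [mul_assoc]

variable {D : C.Bad} (S : Ctx.Sys D)

/-- The ratios at one step on the support of the product above. -/
theorem exists_step (v : HeightOneSpectrum (𝓞 K)) :
    ∃ C' : ℝ, 1 ≤ C' ∧ ∀ (γ : G2 L) (x : Fam C.B v),
      S.P.loc v (ft C.B γ v x) x ≠ 0 → ∀ u, Ratio C' (ft C.B γ v x u) (x u) := by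
  classical
  choose Ck hC1 hC using fun u : C.Fib v => Hyp.exists_ratio (S.P.kw u.1)
  refine ⟨1 + ∑ u, Ck u, le_add_of_nonneg_right (Finset.sum_nonneg fun u _ =>
    zero_le_one.trans (hC1 u)), fun γ x hloc u => ?_⟩
  refine Ratio.mono ?_ (fun ξ => hC u _ _ (Finset.prod_ne_zero_iff.mp hloc u (Finset.mem_univ u)) ξ)
  have := Finset.single_le_sum (f := Ck) (fun u _ => zero_le_one.trans (hC1 u)) (Finset.mem_univ u)
  linarith

/-- The ratios under the norm on the support of the product above. -/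
theorem exists_near (v : HeightOneSpectrum (𝓞 K)) :
    ∃ C' : ℝ, 1 ≤ C' ∧ ∀ (γ : G2 L) (δ : G2 K), tnrm C.τ γ = incl δ → ∀ x : Fam C.B v,
      S.P.loc v (ft C.B γ v x) x ≠ 0 →
        ∀ u, Ratio C' (x u) (incl (K := K) (L := L) δ • x u) := by
  obtain ⟨C', hC', hstep⟩ := exists_step S v
  refine ⟨C' * C' * C', one_le_mul_of_one_le_of_one_le (one_le_mul_of_one_le_of_one_le hC' hC') hC',
    fun γ δ hN x hloc u => ?_⟩
  have h1 : ∀ u, Ratio C' (ft C.B γ v x u) (x u) := hstep γ x hloc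
  have h2 := fun u => ratio_ft γ (Ck := fun _ => C') h1 u
  have h3 := fun u => ratio_ft γ (Ck := fun _ => C') h2 u
  have h0 : 0 ≤ C' := zero_le_one.trans hC'
  have h := ((h3 u).trans h0 h0 (h2 u)).trans (mul_nonneg h0 h0) h0 (h1 u)
  rw [show incl (K := K) (L := L) δ • x u = ft C.B γ v (ft C.B γ v (ft C.B γ v x)) u by
    rw [ft_cube hN]; rfl]
  exact fun ξ => (h ξ).symm

omit [NumberField K] [NumberField L] in
/-- The inclusion of a diagonal element. -/
lemma incl_dG (a : Kˣ) :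
    incl (K := K) (L := L) (dG a : G2 K) = dG (Units.map (algebraMap K L : K →* L) a) := by
  rw [incl, g2Map, dG, ProjGenLinGroup.map_mk]
  refine congrArg _ (Units.ext ?_)
  ext i j
  fin_cases i <;> fin_cases j <;> simp

variable [IsTotallyComplex K] [IsTotallyComplex L] [IsPrincipalIdealRing (𝓞 K)]

omit [IsTotallyComplex L] in
/-- A bound on a power bounds the number. -/
lemma le_of_pow_le {r C' : ℝ} {e : ℕ} (he : 0 < e) (hC : 1 ≤ C') (hr : r ^ e ≤ C') : r ≤ C' := by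
  rcases le_or_gt r 1 with h | h
  · exact h.trans hC
  · exact (le_self_pow₀ h.le he.ne').trans hr

/-- On the supports the multiplier is bounded both ways. -/
theorem exists_absV_bound (v : HeightOneSpectrum (𝓞 K)) :
    ∃ B : ℝ, 1 ≤ B ∧ ∀ (a : Kˣ) (γ : G2 L), tnrm C.τ γ = incl (dG a : G2 K) → ∀ x : Fam C.B v,
      S.P.loc v (ft C.B γ v x) x ≠ 0 → B⁻¹ ≤ absV v (a : K) ∧ absV v (a : K) ≤ B := by
  obtain ⟨C', hC', hnear⟩ := exists_near S v
  refine ⟨C', hC', fun a γ hN x hloc => ?_⟩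
  obtain ⟨w, hw⟩ := C.exists_over v
  obtain ⟨e, he, habs⟩ := exists_exp (⟨w, hw⟩ : C.Fib v)
  have h := hnear γ _ hN x hloc ⟨w, hw⟩
  rw [incl_dG] at h
  obtain ⟨h1, h2⟩ := h.absV_le
  rw [Units.coe_map, MonoidHom.coe_coe, habs] at h1 h2
  refine ⟨inv_le_of_inv_le₀ (AbsoluteValue.pos _ a.ne_zero) (le_of_pow_le he hC' ?_),
    le_of_pow_le he hC' h1⟩
  rwa [inv_pow]

section

omit [IsTotallyComplex K] [IsTotallyComplex L] [IsPrincipalIdealRing (𝓞 K)]

omit [NumberField K] [NumberField L] in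
lemma mk_eq_dG_of_commute {a : Kˣ} (ha : (a : K) ≠ 1) {t : GL (Fin 2) L}
    (ht : Commute t (upGL (LT.dB a))) :
    ∃ α : Lˣ, (ProjGenLinGroup.mk t : G2 L) = dG α := by
  refine Hyp.exists_dG_of_diag (Hyp.offdiag_of_commute
    (α := Units.map (algebraMap K L : K →* L) a)
    (fun e => ha ((algebraMap K L).injective (e.trans (map_one _).symm))) ?_)
  rwa [← Hyp.upGL_dB]

/-- Heights at one place of a translate against those of a diagonal translate of the base. -/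
lemma prod_le_of_comp {w : HeightOneSpectrum (𝓞 L)} {c c' : G2 L ⧸ C.UL.loc w} {α : Lˣ}
    {C₂ M : ℝ} (hC₂ : 0 ≤ C₂) (k1 : locM w e1 ((dG α : G2 L) • c) ≤ C₂ * locM w e1 c')
    (k0 : locM w e0 ((dG α : G2 L) • c) ≤ C₂ * locM w e0 c')
    (h1 : locM w e1 c' * locM w e0 c' ≤ M) :
    locM w e1 c * locM w e0 c ≤ C₂ * C₂ * M := by
  rw [Hyp.locM_e1_dG] at k1
  rw [Hyp.locM_e0_dG] at k0
  have ha0 : 0 < absV w (α : L) := AbsoluteValue.pos _ α.ne_zero
  have := mul_le_mul k1 k0 (mul_nonneg (locM_nonneg _ _) ha0.le)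
    (mul_nonneg hC₂ (locM_nonneg _ _))
  calc locM w e1 c * locM w e0 c
      = locM w e1 c / absV w (α : L) * (locM w e0 c * absV w (α : L)) := by field_simp
    _ ≤ C₂ * locM w e1 c' * (C₂ * locM w e0 c') := this
    _ = C₂ * C₂ * (locM w e1 c' * locM w e0 c') := by ring
    _ ≤ C₂ * C₂ * M := mul_le_mul_of_nonneg_left h1 (mul_self_nonneg _)

lemma lw_le_of_pow_le {z : Pt C.X v} {e : ℕ} (he : 0 < e) {P : ℝ}
    (h : (locM v e1 z * locM v e0 z) ^ e ≤ P) : Hyp.lw z ≤ |Real.log P| := by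
  have hp : 0 < locM v e1 z * locM v e0 z :=
    mul_pos (locM_pos _ e1_ne_zero _) (locM_pos _ e0_ne_zero _)
  have hl := Real.log_le_log (pow_pos hp e) h
  rw [Real.log_pow] at hl
  have he' : (1 : ℝ) ≤ e := by exact_mod_cast he
  unfold Hyp.lw
  rcases le_or_gt (Real.log (locM v e1 z * locM v e0 z)) 0 with h0 | h0
  · exact h0.trans (abs_nonneg _)
  · exact ((le_mul_of_one_le_left h0.le he').trans hl).trans (le_abs_self _)

lemma up_prod_le {u : C.Fib v} {e : ℕ}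
    (habs : ∀ x : K, absV u.1 (algebraMap K L x) = absV v x ^ e) {g : G2 K} {P : ℝ}
    (h : locM u.1 e1 (QuotientGroup.mk (incl g) : G2 L ⧸ C.UL.loc u.1) *
      locM u.1 e0 (QuotientGroup.mk (incl g) : G2 L ⧸ C.UL.loc u.1) ≤ P) :
    (locM v e1 (QuotientGroup.mk g : Pt C.X v) *
      locM v e0 (QuotientGroup.mk g : Pt C.X v)) ^ e ≤ P := by
  rw [mul_pow, ← locM_up_pow u habs, ← locM_up_pow u habs, upVec_e1, upVec_e0, C.up_mk]
  exact h

end

/-- The linked coset below has bounded heights. -/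
theorem exists_lw_bound {a : Kˣ} (ha : (a : K) ≠ 1) {γ : G2 L}
    (hN : tnrm C.τ γ = incl (dG a : G2 K)) {A : Fam C.B v → Pt C.X v → ℝ}
    (hA : LinkAt (LT.dB a) v A) :
    ∃ R : ℝ, ∀ x z, S.P.loc v (ft C.B γ v x) x * (A x z : ℂ) ≠ 0 → Hyp.lw z ≤ R := by
  obtain ⟨u, t, Q, htc, hQ⟩ := hA
  obtain ⟨C₁, hC₁, hnear⟩ := exists_near S v
  obtain ⟨C₂, hC₂, hcomp⟩ := Hyp.exists_locM_comp (U := C.UL) (v := u.1) Q
  obtain ⟨e, he, habs⟩ := exists_exp u
  obtain ⟨α, hα⟩ := mk_eq_dG_of_commute ha htc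
  obtain ⟨b, hb0⟩ : ∃ b : Lˣ, b = Units.map (algebraMap K L : K →* L) a := ⟨_, rfl⟩
  obtain ⟨M, hM⟩ : ∃ M : ℝ, M = max 1 (C₁ ^ 2 / absV u.1 ((b : L)⁻¹ - 1) ^ 2) := ⟨_, rfl⟩
  refine ⟨|Real.log (C₂ * C₂ * M)|, fun x z h => ?_⟩
  have hA : A x z ≠ 0 := fun h0 => right_ne_zero_of_mul h (by rw [h0, Complex.ofReal_zero])
  obtain ⟨g, rfl⟩ := QuotientGroup.mk_surjective z
  obtain ⟨q, hq, hxu⟩ := hQ x _ hA g rfl
  have hr := hnear γ _ hN x (left_ne_zero_of_mul h) u
  rw [incl_dG, ← hb0] at hr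
  have hb : (b : L) ≠ 1 := fun h1 => ha ((algebraMap K L).injective (by
    rw [map_one, ← h1, hb0]; rfl))
  have h1 : locM u.1 e1 (x u) * locM u.1 e0 (x u) ≤ M := hM ▸ hr.heights_le hC₁ hb
  have hbase : (QuotientGroup.mk (ProjGenLinGroup.mk t * incl (K := K) (L := L) g) :
      G2 L ⧸ C.UL.loc u.1) = (dG α : G2 L) • QuotientGroup.mk (incl g) := by
    rw [MulAction.Quotient.smul_mk, hα, smul_eq_mul]
  have k : ∀ ξ, locM u.1 ξ ((dG α : G2 L) • (QuotientGroup.mk (incl g) :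
      G2 L ⧸ C.UL.loc u.1)) ≤ C₂ * locM u.1 ξ (x u) := fun ξ => by
    rw [← hbase, hxu]
    exact (hcomp q hq _ ξ).2
  exact lw_le_of_pow_le he (up_prod_le habs
    (prod_le_of_comp (zero_le_one.trans hC₂) (k e1) (k e0) h1))

variable {γ : G2 L} {δ₀ : G2 K} {H : Subgroup (G2 K)} (G : TwistCtx.Glue S.P γ δ₀ H)

omit [IsTotallyComplex K] [IsTotallyComplex L] [IsPrincipalIdealRing (𝓞 K)] in
/-- The absolute total vanishes unless some coset above contributes. -/
lemma exists_of_absTot {z : Pt C.X v} (h : G.absTot v z ≠ 0) :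
    ∃ x, S.P.loc v (ft C.B γ v x) x * (G.A v x z : ℂ) ≠ 0 := by
  by_contra hne
  push Not at hne
  exact h (by simp [TwistCtx.Glue.absTot, hne])

end FermatAgent.LT2.Geo
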