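import Mathlib
import Fermat.Agent.LT.Descent.Hyp.Class
import Fermat.Agent.LT2.Geo.Near

/-!
# The diagonal classes met away from one place

The systems with one kernel inserted at a split place share everything away from it, so finitely
many diagonal elements are met, whatever the inserted kernel.
-/

set_option autoImplicit false

noncomputable section

open Matrix IsDedekindDomain NumberField Filter
open scoped MatrixGroups

namespace FermatAgent.LT2.Geo

open FermatAgent.LT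
open FermatAgent.LT.Whit (dG)
open FermatAgent.LT.TwistCtx (Fam Pt incl ft KerPair)
open FermatAgent.LT.Hyp (cubeAt twProd near_of_twProd_ne_zero map_dG_smul norm_apply_eq)

variable {K L : Type*} [Field K] [NumberField K] [Field L] [NumberField L] [Algebra K L]
  {C : Ctx K L} {D : C.Bad}

section Inserted

variable {S S' : Ctx.Sys D} {v₀ : HeightOneSpectrum (𝓞 K)} {u₀ : C.Fib v₀} {k : LocKer C.UK v₀}
  (hI : S.Inserted S' u₀ k)

include hI

lemma kw_eq {v : HeightOneSpectrum (𝓞 K)} (hv : v ≠ v₀) (u : C.Fib v) :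
    S'.P.kw u.1 = S.P.kw u.1 := by
  by_cases hs : C.IsSplit v
  · ext c d
    obtain ⟨a, rfl⟩ := C.up_surjective hs u c
    obtain ⟨b, rfl⟩ := C.up_surjective hs u d
    rw [S'.kw_split v hs u, S.kw_split v hs u, hI.other v hv u]
  have hs' : ¬C.IsSplit (C.b u.1) := by rw [u.2]; exact hs
  by_cases hS : v ∈ C.S
  · have hS' : C.b u.1 ∈ C.S := by rw [u.2]; exact hS
    rw [S'.kw_bad u.1 hs' hS', S.kw_bad u.1 hs' hS']
  · have hS' : C.b u.1 ∉ C.S := by rw [u.2]; exact hS
    rw [S'.kw_good u.1 hs' hS', S.kw_good u.1 hs' hS']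

lemma kv_eq {v : HeightOneSpectrum (𝓞 K)} (hv : v ≠ v₀) : S'.P.kv v = S.P.kv v := by
  by_cases hs : C.IsSplit v
  · obtain ⟨w, hw⟩ := C.exists_over v
    rw [S'.kv_split v hs ⟨w, hw⟩, S.kv_split v hs ⟨w, hw⟩, hI.other v hv, hI.other v hv,
      hI.other v hv]
  by_cases hS : v ∈ C.S
  · rw [S'.kv_bad v hS hs, S.kv_bad v hS hs]
  · rw [S'.kv_good v hs hS, S.kv_good v hs hS]

lemma loc_eq {v : HeightOneSpectrum (𝓞 K)} (hv : v ≠ v₀) (x y : Fam C.B v) :
    S'.P.loc v x y = S.P.loc v x y :=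
  Finset.prod_congr rfl fun u _ => by rw [kw_eq hI hv u]

end Inserted

section Kfin

variable {X : TwistCtx K L} {B : X.Over} (P : KerPair B)

/-- A nonvanishing product kernel below has no vanishing factor. -/
lemma kv_ne_of_kfin {c z : FinCoset X.UK} (h : P.down.kfin c z ≠ 0) (v : HeightOneSpectrum (𝓞 K)) :
    (P.kv v).k (c.1 v) (z.1 v) ≠ 0 := by
  classical
  rw [P.down_kfin subset_rfl] at h
  split_ifs at h with hfix
  · by_cases hvT : v ∈ P.T
    · exact Finset.prod_ne_zero_iff.mp h v hvT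
    · rw [P.kv_one v hvT, LocKer.one_k]
      exact ne_of_eq_of_ne (if_pos (hfix v hvT)) one_ne_zero
  · exact absurd rfl h

/-- A nonvanishing product kernel above has no vanishing product over one place below. -/
lemma loc_ne_of_kfin {γ : G2 L} {x : FinCoset X.UL} (h : P.up.kfin (X.finTwist γ x) x ≠ 0)
    (v : HeightOneSpectrum (𝓞 K)) :
    P.loc v (ft B γ v (TwistCtx.Glue.resF x v)) (TwistCtx.Glue.resF x v) ≠ 0 := by
  classical
  rw [P.up_kfin subset_rfl] at h
  split_ifs at h with hfix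
  · by_cases hvT : v ∈ P.T
    · exact Finset.prod_ne_zero_iff.mp h v hvT
    · refine Finset.prod_ne_zero_iff.mpr fun u _ => ?_
      rw [P.kw_one u.1 (by rw [u.2]; exact hvT), LocKer.one_k]
      exact ne_of_eq_of_ne (if_pos (congrFun (hfix v hvT) u)) one_ne_zero
  · exact absurd rfl h

end Kfin

variable (S : Ctx.Sys D)

variable [IsTotallyComplex K] [IsTotallyComplex L] [IsPrincipalIdealRing (𝓞 K)]

/-- Bounds for the multiplier at a place, trivial outside the exceptional places. -/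
theorem exists_place_bound (v : HeightOneSpectrum (𝓞 K)) :
    ∃ B : ℝ, 1 ≤ B ∧ (v ∉ S.P.T → B = 1) ∧ ∀ a : Kˣ,
      (∀ z : Pt C.X v, (S.P.kv v).k ((dG a : G2 K) • z) z ≠ 0 →
        B⁻¹ ≤ absV v (a : K) ∧ absV v (a : K) ≤ B) ∧
      ∀ γ : G2 L, tnrm C.τ γ = incl (dG a : G2 K) → ∀ x : Fam C.B v,
        S.P.loc v (ft C.B γ v x) x ≠ 0 → B⁻¹ ≤ absV v (a : K) ∧ absV v (a : K) ≤ B := by
  classical
  by_cases hv : v ∈ S.P.T
  · obtain ⟨B₁, hB₁, h₁⟩ := Hyp.exists_ratio (S.P.kv v)
    obtain ⟨B₂, hB₂, h₂⟩ := exists_absV_bound S v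
    refine ⟨max B₁ B₂, hB₁.trans (le_max_left _ _), fun h => absurd hv h,
      fun a => ⟨fun z hz => ?_, fun γ hN x hx => ?_⟩⟩
    · have h : Ratio B₁ z ((dG a : G2 K) • z) := fun ξ => (h₁ _ _ hz ξ).symm
      obtain ⟨k1, k2⟩ := h.absV_le
      refine ⟨inv_le_of_inv_le₀ (AbsoluteValue.pos _ a.ne_zero) (k2.trans (le_max_left _ _)),
        k1.trans (le_max_left _ _)⟩
    · obtain ⟨k1, k2⟩ := h₂ a γ hN x hx
      exact ⟨(inv_anti₀ (zero_lt_one.trans_le hB₂) (le_max_right _ _)).trans k1,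
        k2.trans (le_max_right _ _)⟩
  · refine ⟨1, le_rfl, fun _ => rfl, fun a => ⟨fun z hz => ?_, fun γ hN x hx => ?_⟩⟩
    · rw [S.P.kv_one v hv, LocKer.one_k] at hz
      have hz' : (dG a : G2 K) • z = z := by
        by_contra hne
        exact hz (if_neg hne)
      have h : Ratio 1 z ((dG a : G2 K) • z) := fun ξ => by rw [hz', one_mul, and_self]
      obtain ⟨k1, k2⟩ := h.absV_le
      exact ⟨inv_le_of_inv_le₀ (AbsoluteValue.pos _ a.ne_zero) k2, k1⟩
    · have hfix : ft C.B γ v x = x := funext fun u => by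
        by_contra hne
        refine hx (Finset.prod_eq_zero (Finset.mem_univ u) ?_)
        rw [S.P.kw_one u.1 (by rw [u.2]; exact hv), LocKer.one_k, if_neg hne]
      obtain ⟨w, hw⟩ := C.exists_over v
      obtain ⟨e, he, habs⟩ := exists_exp (⟨w, hw⟩ : C.Fib v)
      have h := congrFun (ft_cube hN x) ⟨w, hw⟩
      rw [hfix, hfix, hfix] at h
      have hr :
          Ratio 1 (x ⟨w, hw⟩) (incl (K := K) (L := L) (dG a : G2 K) • x ⟨w, hw⟩) := fun ξ => by
        rw [show incl (K := K) (L := L) (dG a : G2 K) • x ⟨w, hw⟩ = x ⟨w, hw⟩ from h.symm, one_mul,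
          and_self]
      rw [incl_dG] at hr
      obtain ⟨k1, k2⟩ := hr.absV_le
      rw [Units.coe_map, MonoidHom.coe_coe, habs] at k1 k2
      refine ⟨inv_le_of_inv_le₀ (AbsoluteValue.pos _ a.ne_zero) (le_of_pow_le he le_rfl ?_),
        le_of_pow_le he le_rfl k1⟩
      rwa [inv_pow]

omit [IsPrincipalIdealRing (𝓞 K)] [IsTotallyComplex K] [IsTotallyComplex L] in
/-- A nonvanishing twisted product bounds the absolute value at infinity both ways. -/
theorem exists_inf_bound (X : TwistCtx K L) (k : InfKer) :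
    ∃ B : ℝ, 1 ≤ B ∧ (∀ (a : Kˣ) (p : InfPts K), cubeAt X k (dG a) p ≠ 0 →
        B⁻¹ ≤ X.v (a : K) ∧ X.v (a : K) ≤ B) ∧
      ∀ (a : Kˣ) (b : Lˣ), X.T.nrm (dG b) = incl (dG a : G2 K) →
        ∀ p : InfPts L, twProd X k (dG b) p ≠ 0 → B⁻¹ ≤ X.v (a : K) ∧ X.v (a : K) ≤ B := by
  set ρ := max k.ρ 0
  set ρ₂ := 1 + H3.nearC ρ * (H3.nearC ρ * 3)
  set ρ₃ := 1 + H3.nearC ρ₂ * (H3.nearC ρ * 3)
  set R := max (max (k.comp (k.comp k)).ρ ρ₃) 0
  have key : ∀ (a : Kˣ) (f : K →+* ℂ) (p : H3),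
      H3.coshDist (ProjGenLinGroup.map f (dG a : G2 K) • p) p ≤ R →
        (2 * R + 2)⁻¹ ≤ X.v (a : K) ∧ X.v (a : K) ≤ 2 * R + 2 := by
    intro a f p hp
    have h2 := (H3.coord_bounds_of_coshDist hp).2.1
    have h1 := (H3.coord_bounds_of_coshDist hp).1
    rw [(map_dG_smul f a p).2, norm_apply_eq X] at h1 h2
    have ht := p.t_pos
    have hR : (0 : ℝ) < 2 * R + 2 := by positivity
    constructor
    · rw [inv_le_iff_one_le_mul₀ hR]
      refine le_of_mul_le_mul_right ?_ ht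
      rw [one_mul, mul_comm (X.v (a : K))]
      linarith [mul_assoc (2 * R + 2) (X.v (a : K)) p.t]
    · exact le_of_mul_le_mul_right h2 ht
  refine ⟨2 * R + 2, ?_, fun a p hp => key a _ (p X.v)
    (((k.comp (k.comp k)).supp _ _ hp).trans ((le_max_left _ _).trans (le_max_left _ _))),
    fun a b hN p hp => ?_⟩
  · linarith [le_max_right (max (k.comp (k.comp k)).ρ ρ₃) 0]
  obtain ⟨-, -, -, hloop'⟩ := near_of_twProd_ne_zero k hp
  rw [hN] at hloop'
  refine key a ((X.T.e 0).embedding.comp (algebraMap K L)) (p (X.T.e 0)) ?_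
  refine le_trans ?_ (hloop'.trans ((le_max_right _ _).trans (le_max_left _ _)))
  refine le_of_eq ?_
  rw [InfCycle.act]
  simp only [incl, g2Map, dG, ProjGenLinGroup.map_mk]
  rfl

/-- Finitely many diagonal elements are met, whatever is inserted at one split place. -/
theorem exists_bdSet (v₀ : HeightOneSpectrum (𝓞 K)) (u₀ : C.Fib v₀) :
    ∃ Bd : Finset Kˣ, ∀ (S' : Ctx.Sys D) (k : LocKer C.UK v₀), S.Inserted S' u₀ k → ∀ a ∉ Bd,
      (∀ y : Space C.UK, C.X.σK.term S'.P.down.toPtKer (dG a) y = 0) ∧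
        ∀ b : Lˣ, C.X.T.nrm (dG b) = incl (dG a : G2 K) →
          ∀ y : Space C.UL, C.X.σ.term S'.P.up.toPtKer (dG b) y = 0 := by
  classical
  have : Unique (InfinitePlace K) := ⟨⟨C.X.v⟩, fun w => C.X.uniq w⟩
  choose B hB1 hBT hB using fun v => exists_place_bound S v
  obtain ⟨Bi, hBi1, hBiK, hBiL⟩ := exists_inf_bound C.X S.P.k
  set Good : Kˣ → Prop := fun a => (∀ v ≠ v₀, (B v)⁻¹ ≤ absV v (a : K) ∧ absV v (a : K) ≤ B v) ∧
    Bi⁻¹ ≤ C.X.v (a : K) ∧ C.X.v (a : K) ≤ Bi
  set T := S.P.T.erase v₀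
  set B₀ : ℝ := (∏ v ∈ T, B v) * Bi ^ 2
  have hfin : {a : Kˣ | Good a}.Finite := by
    refine Set.Finite.of_finite_image ?_ (Units.val_injective.injOn)
    refine (finite_of_bounded (fun v => if v = v₀ then B₀ else B v) ?_ Bi).subset ?_
    · filter_upwards [S.P.T.finite_toSet.compl_mem_cofinite,
        (Set.finite_singleton v₀).compl_mem_cofinite] with v hv hv0
      rw [if_neg (by simpa using hv0), hBT v hv]
    · rintro _ ⟨a, ⟨ha, hia, hib⟩, rfl⟩
      refine ⟨fun v => ?_, fun w => by rw [C.X.uniq w]; exact hib⟩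
      split_ifs with hv
      swap
      · exact (ha v hv).2
      subst hv
      have hp := product_formula (L := K) a.ne_zero
      rw [Fintype.prod_unique, IsTotallyComplex.mult_eq,
        finprod_eq_prod_of_mulSupport_subset _ (s := insert v T) fun u hu => ?_,
        Finset.prod_insert (by simp [T])] at hp
      swap
      · by_contra hne
        simp only [T, Finset.coe_insert, Finset.coe_erase, Set.mem_insert_iff, Set.mem_sdiff,
          Finset.mem_coe, Set.mem_singleton_iff, not_or, not_and, not_not] at hne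
        obtain ⟨hne1, hne2⟩ := hne
        refine hu ?_
        have huT : u ∉ S.P.T := fun hh => hne1 (hne2 hh)
        obtain ⟨k1, k2⟩ := ha u hne1
        rw [hBT u huT] at k1 k2
        rw [inv_one] at k1
        exact le_antisymm k2 k1
      rw [show (default : InfinitePlace K) = C.X.v from C.X.uniq _] at hp
      have hpi : 0 < ∏ u ∈ T, B u := Finset.prod_pos fun u _ => zero_lt_one.trans_le (hB1 u)
      have hlow : (∏ u ∈ T, B u)⁻¹ ≤ ∏ u ∈ T, absV u (a : K) := by
        rw [← Finset.prod_inv_distrib]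
        exact Finset.prod_le_prod (fun u _ => inv_nonneg.mpr (zero_le_one.trans (hB1 u)))
          fun u hu => (ha u (Finset.ne_of_mem_erase hu)).1
      have hlow' : B₀⁻¹ ≤ C.X.v (a : K) ^ 2 * ∏ u ∈ T, absV u (a : K) := by
        rw [_root_.mul_inv, mul_comm, ← inv_pow]
        exact mul_le_mul (pow_le_pow_left₀ (inv_nonneg.mpr (zero_le_one.trans hBi1)) hia 2) hlow
          (inv_nonneg.mpr hpi.le) (sq_nonneg _)
      have hB₀ : 0 < B₀ := mul_pos hpi (pow_pos (zero_lt_one.trans_le hBi1) 2)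
      rw [inv_le_iff_one_le_mul₀ hB₀] at hlow'
      calc absV v (a : K) = absV v (a : K) * 1 := (mul_one _).symm
        _ ≤ absV v (a : K) * (C.X.v (a : K) ^ 2 * (∏ u ∈ T, absV u (a : K)) * B₀) :=
          mul_le_mul_of_nonneg_left hlow' (AbsoluteValue.nonneg _ _)
        _ = C.X.v (a : K) ^ 2 * (absV v (a : K) * ∏ u ∈ T, absV u (a : K)) * B₀ := by ring
        _ = B₀ := by rw [hp, one_mul]
  refine ⟨hfin.toFinset, fun S' k hI a ha => ?_⟩
  rw [Set.Finite.mem_toFinset, Set.mem_ofPred_eq] at ha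
  simp only [Good, not_and_or, not_forall] at ha
  constructor
  · intro y
    show S'.P.down.kinf ((dG a : G2 K) • y.1) y.1 * S'.P.down.kfin ((dG a : G2 K) • y.2) y.2 = 0
    rw [mul_eq_zero]
    by_contra hne
    push Not at hne
    obtain ⟨hk, hf⟩ := hne
    rcases ha with ⟨v, hv, hbad⟩ | hbad
    · have hkv : (S'.P.kv v).k ((dG a : G2 K) • y.2.1 v) (y.2.1 v) ≠ 0 := kv_ne_of_kfin S'.P hf v
      rw [kv_eq hI hv] at hkv
      obtain ⟨k1, k2⟩ := (hB v a).1 _ hkv
      rcases hbad with h | h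
      exacts [h k1, h k2]
    · have hc : cubeAt C.X S.P.k (dG a) y.1 ≠ 0 := by
        intro h0
        refine hk ?_
        show ∏ w : InfinitePlace K, (S'.P.k.comp (S'.P.k.comp S'.P.k)).k
          (((dG a : G2 K) • y.1) w) (y.1 w) = 0
        rw [hI.inf]
        exact Finset.prod_eq_zero (Finset.mem_univ C.X.v) h0
      obtain ⟨k1, k2⟩ := hBiK a y.1 hc
      rcases hbad with h | h
      exacts [h k1, h k2]
  · intro b hN y
    show twProd C.X S'.P.k (dG b) y.1 * S'.P.up.kfin (C.X.finTwist (dG b) y.2) y.2 = 0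
    rw [mul_eq_zero]
    by_contra hne
    push Not at hne
    obtain ⟨hk, hf⟩ := hne
    rcases ha with ⟨v, hv, hbad⟩ | hbad
    · have hloc := loc_ne_of_kfin S'.P hf v
      rw [loc_eq hI hv] at hloc
      obtain ⟨k1, k2⟩ := (hB v a).2 _ hN _ hloc
      rcases hbad with h | h
      exacts [h k1, h k2]
    · rw [hI.inf] at hk
      obtain ⟨k1, k2⟩ := hBiL a b hN y.1 hk
      rcases hbad with h | h
      exacts [h k1, h k2]

end FermatAgent.LT2.Geo
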