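import Mathlib
import Fermat.Agent.LT.Descent.Hyp.Fin
import Fermat.Agent.LT.Descent.Uni.Local
import Fermat.Agent.LT2.Geo.Near

/-!
# Finite supports on the slice

The finiteness of the supports of glued diagonal classes, and enlarging the exceptional set of
linked data.
-/

set_option autoImplicit false

noncomputable section

open Matrix IsDedekindDomain NumberField Filter MeasureTheory
open scoped MatrixGroups

namespace FermatAgent.LT2.Geo

open FermatAgent.LT
open FermatAgent.LT.Whit (nB dG dG_mul_nB dG_mem_locK nB_mem_locK)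
open FermatAgent.LT.TwistCtx (Fam Pt incl ft actFam KerPair Glue)

/-- The cosets of the slice of bounded weight are finite in number. -/
theorem finite_lw_slice {F : Type*} [Field F] [NumberField F] {U : Level F}
    (hU : U.IsCongr) (v : HeightOneSpectrum (𝓞 F)) (R : ℝ) :
    (Hyp.slice U v ∩ {c | Hyp.lw c ≤ R}).Finite := by
  refine (Uni.finite_slab hU (Real.exp R)).subset fun c ⟨hc, hlw⟩ => ⟨hc, ?_⟩
  rw [← Real.log_le_iff_le_exp (locM_pos _ e0_ne_zero _)]
  have h : Real.log (locM v e1 c * locM v e0 c) ≤ R := hlw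
  rwa [show locM v e1 c = 1 from hc, one_mul] at h

section Glue

variable {K L : Type*} [Field K] [NumberField K] [Field L] [NumberField L] [Algebra K L]
  {C : Ctx K L} {D : C.Bad} {S : Ctx.Sys D} {γ : G2 L} {δ : GL (Fin 2) K} {H : Subgroup (G2 K)}
  (G : Glue S.P γ (ProjGenLinGroup.mk δ) H)

/-- More exceptional places keep the linked weights. -/
lemma linkAt_enlarge (T' : Finset (HeightOneSpectrum (𝓞 K))) (hT' : G.T ⊆ T')
    (hlift : G.lift = C.liftFam) (hA : ∀ v, LinkAt δ v (G.A v)) (v : HeightOneSpectrum (𝓞 K)) :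
    LinkAt δ v ((G.enlarge T' hT').A v) := by
  classical
  by_cases hv : v ∈ G.T
  · have e : (G.enlarge T' hT').A v = G.A v := by
      funext x z
      simp [Glue.enlarge, hv]
    rw [e]
    exact hA v
  · obtain ⟨w, hw⟩ := C.exists_over v
    refine ⟨⟨w, hw⟩, 1, {1}, Commute.one_left _, fun x z hne g hg =>
      ⟨1, Finset.mem_singleton_self _, ?_⟩⟩
    simp only [Glue.enlarge, if_neg hv, ne_eq, ite_eq_right_iff, not_forall] at hne
    obtain ⟨⟨-, hx⟩, -⟩ := hne
    rw [hx, hlift, ← hg]
    show C.up _ (QuotientGroup.mk g) = _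
    rw [C.up_mk, map_one, one_mul, mul_one]

variable [IsTotallyComplex K] [IsTotallyComplex L] [IsPrincipalIdealRing (𝓞 K)]

/-- The supports of a glued diagonal class meet the slice in finite sets. -/
theorem finite_absTot {a : Kˣ} (ha : (a : K) ≠ 1) {γ : G2 L} {H : Subgroup (G2 K)}
    (G : Glue S.P γ (dG a) H) {v : HeightOneSpectrum (𝓞 K)} (hA : LinkAt (LT.dB a) v (G.A v)) :
    (Hyp.slice C.X.UK v ∩ {z | G.absTot v z ≠ 0}).Finite := by
  obtain ⟨R, hR⟩ := exists_lw_bound S ha G.norm_eq hA
  refine (finite_lw_slice C.congrK v R).subset fun z hz => ⟨hz.1, ?_⟩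
  obtain ⟨x, hx⟩ := exists_of_absTot S G hz.2
  exact hR x z hx

end Glue

end FermatAgent.LT2.Geo
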