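import Mathlib
import Fermat.Agent.LT.Descent.Hyp.Class
import Fermat.Agent.LT.Descent.Uni.Trunc
import Fermat.Agent.LT2.Geo.HypFin

/-!
# A diagonal class against a kernel with vanishing sums over the slice

When the kernel below at one split place has vanishing plain and weighted sums over the slice
against a diagonal element, the truncated integrals of its class vanish on both sides for small
truncation, and the truncated terms are integrable.
-/

set_option autoImplicit false

noncomputable section

open Matrix IsDedekindDomain NumberField Filter MeasureTheory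
open scoped MatrixGroups ENNReal Topology

namespace FermatAgent.LT2.Geo

open FermatAgent.LT
open FermatAgent.LT.Whit (dG)
open FermatAgent.LT.TwistCtx (Fam Pt KerPair Glue)
open FermatAgent.LT.Hyp (kapK hL finLog diagG totSet kapW)

variable {K L : Type*} [Field K] [NumberField K] [Field L] [NumberField L] [Algebra K L]
  {X : TwistCtx K L} {B : X.Over} {P : KerPair B} {a : Kˣ}

/-- The conditions on an exceptional set and supports of a diagonal element, with vanishing sums at
one place of the set. -/
structure Killed (P : KerPair B) (a : Kˣ) (T : Finset (HeightOneSpectrum (𝓞 K)))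
    (s : ∀ v, Set (Pt X v)) (v₀ : HeightOneSpectrum (𝓞 K)) : Prop
    extends Hyp.Supported P a T s where
  mem : v₀ ∈ T
  sum : ∑' d, (Hyp.slice X.UK v₀).indicator (kapK P a v₀) d = 0
  sum_lw : ∑' d, (Hyp.slice X.UK v₀).indicator (fun d => (Hyp.lw d : ℂ) * kapK P a v₀ d) d = 0

variable [IsTotallyComplex K] [IsTotallyComplex L] [IsPrincipalIdealRing (𝓞 K)]
  {T : Finset (HeightOneSpectrum (𝓞 K))} {s : ∀ v, Set (Pt X v)}
  {v₀ : HeightOneSpectrum (𝓞 K)}

omit [IsTotallyComplex L] in
open Classical in
/-- A killed class below: integrable, with vanishing integral, for small truncation. -/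
theorem class_trunc_K (hE : Killed P a T s v₀) (ha : (a : K) ≠ 1)
    [(X.subK (dG a) (diagG K)).FiniteIndex]
    (hH : ∀ h ∈ diagG K, h * dG a * h⁻¹ = dG a)
    {sK : Set (Space X.UK)} (hs : IsFundamentalDomain (G2 K) sK (Space.vol X.UK)) :
    Space.TruncZero sK (X.σK.sumOn P.down.toPtKer (X.σK.cls (dG a))) := by
  have hV := (Hyp.tsum_hK_weight_eq hE.toSupported).trans (Finset.sum_eq_zero fun u _ =>
    Hyp.tsum_kapW_eq_zero hE.toSupported hE.mem hE.sum fun _ => hE.sum_lw)
  refine (Hyp.class_trunc_K hE.toSupported ha hH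
    (Hyp.tsum_hK_eq_zero hE.toSupported hE.mem hE.sum) hV hs).mono fun ε h => ⟨h.1, ?_⟩
  simpa [Subgroup.FiniteIndex.index_ne_zero] using h.2

omit [IsTotallyComplex K] in
open Classical in
/-- A killed class above: integrable, with vanishing integral, for small truncation. -/
theorem class_trunc_L {b : Lˣ} (ha : (a : K) ≠ 1)
    (G : Glue P (dG b) (dG a) (diagG K)) [G.subC.FiniteIndex]
    (hE : Killed P a G.T (totSet G) v₀)
    (D : Hyp.SplitAt P (dG b) (dG a) v₀) (w₀ : {w // B.b w = v₀})
    (hA : ∀ x z, G.A v₀ x z = if x w₀ = D.iota w₀ z then 1 else 0)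
    {sL : Set (Space X.UL)} (hs : IsFundamentalDomain (G2 L) sL (Space.vol X.UL)) :
    Space.TruncZero sL (X.σ.sumOn P.up.toPtKer (X.σ.cls (dG b))) := by
  have hV := Hyp.tsum_hL_weight hE.toSupported D w₀ hE.mem (fun α => ⟨α, rfl⟩) hA hE.sum
  rw [Hyp.tsum_kapW_eq_zero hE.toSupported hE.mem hE.sum fun _ => hE.sum_lw, mul_zero] at hV
  refine (Hyp.class_trunc_L ha G hE.toSupported
    (Hyp.tsum_hK_eq_zero hE.toSupported hE.mem hE.sum) hV hs).mono fun ε h => ⟨h.1, ?_⟩
  simpa [Subgroup.FiniteIndex.index_ne_zero] using h.2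

end FermatAgent.LT2.Geo
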