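import Mathlib
import Fermat.Agent.LT.Descent.Hyp.Diag
import Fermat.Agent.LT2.Geo.Flat
import Fermat.Agent.LT2.Geo.HypBd
import Fermat.Agent.LT2.Geo.HypClass

/-!
# The hyperbolic parts against a flat kernel

When a kernel flat up to a large enough range is inserted at one split place, the truncated
hyperbolic sums are integrable with vanishing integrals on both sides, for small truncation.
-/

set_option autoImplicit false

noncomputable section

open Matrix IsDedekindDomain NumberField Filter MeasureTheory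
open scoped MatrixGroups Topology

namespace FermatAgent.LT2.Geo

open FermatAgent.LT
open FermatAgent.LT.Whit (dG)
open FermatAgent.LT.TwistCtx (Fam Pt incl ft KerPair Glue)
open FermatAgent.LT.Hyp (kapK totSet diagG dG_mem_hypK exists_diag exists_dG_of_isRep torus_dB)

/-- A finite union of classes, each integrable with vanishing integral, and classes without
terms. -/
theorem eventually_of_classes {F : Type*} [Field F] [NumberField F] {U : Level F} (σ : Semilin U)
    (k : PtKer U) {A : Set (G2 F)} (hA : σ.Stable A) (J : Finset (G2 F)) (hJ : ∀ d ∈ J, d ∈ A)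
    (hrest : ∀ c ∈ A, (∀ d ∈ J, c ∉ σ.cls d) → ∀ y, σ.term k c y = 0) {s : Set (Space U)}
    (hcls : ∀ d ∈ J, Space.TruncZero s (σ.sumOn k (σ.cls d))) :
    Space.TruncZero s (σ.sumOn k A) := by
  classical
  have hsub : ∀ d ∈ J, σ.cls d ⊆ A := by
    rintro d hd _ ⟨g, rfl⟩
    exact hA g d (hJ d hd)
  set sets := J.image σ.cls
  have key : ∀ T ⊆ sets, Space.TruncZero s (σ.sumOn k (⋃ t ∈ T, t)) := by
    intro T
    induction T using Finset.induction_on with
    | empty =>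
      refine fun _ => Eventually.of_forall fun ε => ?_
      simp [Semilin.sumOn]
    | @insert t T ht ih =>
      intro hT
      obtain ⟨d, hd, rfl⟩ := Finset.mem_image.mp (hT (Finset.mem_insert_self t T))
      have hdis : Disjoint (σ.cls d) (⋃ t ∈ T, t) := by
        refine Set.disjoint_left.mpr fun c hc hc' => ?_
        simp only [Set.mem_iUnion] at hc'
        obtain ⟨t', ht', hct'⟩ := hc'
        obtain ⟨d', -, rfl⟩ := Finset.mem_image.mp (hT (Finset.mem_insert_of_mem ht'))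
        exact ht (((σ.cls_eq_of_mem hct').symm.trans (σ.cls_eq_of_mem hc)) ▸ ht')
      filter_upwards [hcls d hd, ih fun x hx => hT (Finset.mem_insert_of_mem hx)] with ε
        ⟨i1, e1⟩ ⟨i2, e2⟩
      have hfun : (fun x => σ.sumOn k (⋃ t ∈ insert (σ.cls d) T, t) x * (Space.trunc ε x : ℂ)) =
          fun x => σ.sumOn k (σ.cls d) x * (Space.trunc ε x : ℂ) +
            σ.sumOn k (⋃ t ∈ T, t) x * (Space.trunc ε x : ℂ) := funext fun x => by
        rw [Finset.set_biUnion_insert, σ.sumOn_union k hdis, add_mul]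
      rw [hfun]
      exact ⟨i1.fun_add i2, by rw [integral_add i1 i2, e1, e2, add_zero]⟩
  have hfun : ∀ x, σ.sumOn k A x = σ.sumOn k (⋃ t ∈ sets, t) x := fun x => by
    refine tsum_congr fun c => ?_
    by_cases hc : c ∈ ⋃ t ∈ sets, t
    · have hcA : c ∈ A := by
        simp only [Set.mem_iUnion] at hc
        obtain ⟨t, ht, hct⟩ := hc
        obtain ⟨d, hd, rfl⟩ := Finset.mem_image.mp ht
        exact hsub d hd hct
      rw [Set.indicator_of_mem hc, Set.indicator_of_mem hcA]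
    · rw [Set.indicator_of_notMem hc]
      refine Set.indicator_apply_eq_zero.mpr fun hcA => hrest c hcA (fun d hd hmem => hc ?_) x
      exact Set.mem_iUnion₂.mpr ⟨σ.cls d, Finset.mem_image_of_mem _ hd, hmem⟩
  rw [funext hfun]
  exact key sets subset_rfl

variable {K L : Type*} [Field K] [NumberField K] [Field L] [NumberField L] [Algebra K L]
  {C : Ctx K L} {D : C.Bad}

lemma term_of_conj {F : Type*} [Field F] [NumberField F] {U : Level F} (σ : Semilin U)
    (k : PtKer U) {c g : G2 F} (h : ∀ y, σ.term k (σ.conj g c) y = 0) (y : Space U) :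
    σ.term k c y = 0 := by
  have := h (g • y)
  rw [σ.term_smul] at this
  rwa [← σ.conj_mul, inv_mul_cancel, σ.conj_one] at this

variable [IsTotallyComplex K] [IsTotallyComplex L] [IsPrincipalIdealRing (𝓞 K)]

omit [NumberField K] [IsTotallyComplex K] [IsPrincipalIdealRing (𝓞 K)] in
lemma mk_dB_ne_one {a : Kˣ} (ha : (a : K) ≠ 1) : (ProjGenLinGroup.mk (LT.dB a) : G2 K) ≠ 1 :=
  fun e => (dG_mem_hypK ha).2 (by
    rw [show (dG a : G2 K) = 1 from e, show (1 : G2 K) = ProjGenLinGroup.mk 1 from (map_one _).symm,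
      isUnip_mk]
    simp; norm_num)

omit [IsTotallyComplex K] [IsTotallyComplex L] [IsPrincipalIdealRing (𝓞 K)] in
lemma subK_diag_finiteIndex {a : Kˣ} (ha : (a : K) ≠ 1) :
    (C.X.subK (dG a) (diagG K)).FiniteIndex := by
  refine ⟨?_⟩
  show (diagG K).relIndex (C.X.σK.centralizer (ProjGenLinGroup.mk (LT.dB a))) ≠ 0
  rw [TwistCtx.centralizerK_eq, ← torus_dB ha]
  have hδ := mk_dB_ne_one (K := K) ha
  by_cases ht : (LT.dB a).val.trace = 0
  · rw [relIndex_torus two_ne_zero hδ ht]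
    exact two_ne_zero
  · rw [centralizer_mk_eq two_ne_zero ht, Subgroup.relIndex_self]
    exact one_ne_zero

section Class

variable {v₀ : HeightOneSpectrum (𝓞 K)} {u₀ : C.Fib v₀} (S : Ctx.Sys D)
  (hs : C.IsSplit v₀) (hv₀ : v₀ ∈ S.P.T) {a : Kˣ}

/-- The vanishing of the sums of the kernel below at a place against a diagonal element. -/
def SumsAt (v : HeightOneSpectrum (𝓞 K)) (a : Kˣ) : Prop :=
  ∑' d, (Hyp.slice C.UK v).indicator (kapK S.P a v) d = 0 ∧
    ∑' d, (Hyp.slice C.UK v).indicator (fun d => (Hyp.lw d : ℂ) * kapK S.P a v d) d = 0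

omit [IsTotallyComplex K] in
omit [IsPrincipalIdealRing (𝓞 K)] in
lemma finite_exc (ha : (a : K) ≠ 1) : {v : HeightOneSpectrum (𝓞 K) |
    ¬(v.valuation K (a : K) = 1 ∧ v.valuation K (1 - (a : K)) = 1)}.Finite :=
  eventually_cofinite.mp ((eventually_valuation_eq_one a.ne_zero).and
    (eventually_valuation_eq_one (sub_ne_zero.mpr (Ne.symm ha))))

omit [IsTotallyComplex L] in
include hv₀ in
/-- A diagonal class below. -/
theorem hyp_class_K (ha : (a : K) ≠ 1) (hflat : SumsAt S v₀ a) {sK : Set (Space C.UK)}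
    (hsK : IsFundamentalDomain (G2 K) sK (Space.vol C.UK)) :
    Space.TruncZero sK (C.X.σK.sumOn S.P.down.toPtKer (C.X.σK.cls (dG a))) := by
  classical
  set T := S.P.T ∪ (finite_exc ha).toFinset
  have hE : Killed S.P a T (fun v => {d | kapK S.P a v d ≠ 0}) v₀ := by
    refine ⟨⟨Finset.subset_union_left, fun v hv => ?_, fun v _ => ?_, fun v _ d hd => hd⟩,
      Finset.mem_union_left _ hv₀, hflat.1, hflat.2⟩
    · simp only [T, Finset.mem_union, not_or, Set.Finite.mem_toFinset, Set.mem_ofPred_eq, not_not]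
        at hv
      exact ⟨C.UK_else v fun h => hv.1 (S.S_sub h), hv.2.1, hv.2.2⟩
    · exact (Hyp.finite_slice C.congrK (S.P.kv v) ha).subset fun d hd => ⟨hd.1, hd.2⟩
  have := subK_diag_finiteIndex (C := C) ha
  refine class_trunc_K hE ha (fun h hh => ?_) hsK
  obtain ⟨α, rfl⟩ := hh
  show dG α * dG a * (dG α)⁻¹ = (dG a : G2 K)
  rw [← Whit.dG_inv, ← Whit.dG_mul, ← Whit.dG_mul, mul_comm α, mul_inv_cancel_right]

include hs hv₀ in
/-- A diagonal class above. -/
theorem hyp_class_L (u₀ : C.Fib v₀) (ha : (a : K) ≠ 1) (hflat : SumsAt S v₀ a) {γ : G2 L}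
    (hn : C.X.T.nrm γ = incl (dG a : G2 K)) {sL : Set (Space C.UL)}
    (hsL : IsFundamentalDomain (G2 L) sL (Space.vol C.UL)) :
    Space.TruncZero sL (C.X.σ.sumOn S.P.up.toPtKer (C.X.σ.cls γ)) := by
  classical
  have hδ := mk_dB_ne_one (K := K) ha
  obtain ⟨Γ, hΓ, rfl⟩ := C.X.exists_isRep_of_nrm C.twist hn
  obtain ⟨G₀, hlift, hA₀, hlink⟩ := exists_glue S hs u₀ hδ hΓ
  obtain ⟨h0, -⟩ := C.X.index_eq C.twist hδ hΓ G₀
  set T' := G₀.T ∪ (finite_exc ha).toFinset
  set G₁ := G₀.enlarge T' Finset.subset_union_left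
  have hlink₁ : ∀ v, LinkAt (LT.dB a) v (G₁.A v) :=
    linkAt_enlarge G₀ T' Finset.subset_union_left hlift hlink
  have hv : v₀ ∈ G₀.T := G₀.subset hv₀
  have hA₁ : ∀ x z, G₁.A v₀ x z = if x u₀ = C.up u₀ z then 1 else 0 := fun x z => by
    simp only [G₁, Glue.enlarge, if_pos hv, hA₀]
    rfl
  obtain ⟨b, hb⟩ := exists_dG_of_isRep ha hΓ
  have key : ∃ G : Glue S.P (ProjGenLinGroup.mk Γ) (ProjGenLinGroup.mk (LT.dB a)) (torus (LT.dB a)),
      G.subC.index ≠ 0 ∧ (∀ v, LinkAt (LT.dB a) v (G.A v)) ∧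
      (∀ x z, G.A v₀ x z = if x u₀ = C.up u₀ z then 1 else 0) ∧ G.T = T' :=
    ⟨G₁, h0, hlink₁, hA₁, rfl⟩
  rw [hb, torus_dB ha] at key
  obtain ⟨G, hidx, hG, hA, hT⟩ := key
  have : G.subC.FiniteIndex := ⟨hidx⟩
  have hE : Killed S.P a G.T (totSet G) v₀ := by
    refine ⟨⟨G.subset, fun v hv => ?_, fun v _ => finite_absTot ha G (hG v),
      fun v hv => Hyp.kapK_mem_totSet G hv⟩, hT ▸ Finset.mem_union_left _ hv, hflat.1, hflat.2⟩
    have hvP : v ∉ S.P.T := fun h => hv (G.subset h)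
    rw [hT] at hv
    simp only [T', Finset.mem_union, not_or, Set.Finite.mem_toFinset, Set.mem_ofPred_eq, not_not]
      at hv
    exact ⟨C.UK_else v fun h => hvP (S.S_sub h), hv.2.1, hv.2.2⟩
  rw [hb]
  exact class_trunc_L ha G hE (splitAt S hs G.norm_eq) u₀ hA hsL

end Class

variable (S : Ctx.Sys D) {v₀ : HeightOneSpectrum (𝓞 K)} (u₀ : C.Fib v₀)

/-- Vanishing for small truncation on both sides against a flat inserted kernel. -/
theorem exists_hyp (hs : C.IsSplit v₀) {sL : Set (Space C.UL)}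
    (hsL : IsFundamentalDomain (G2 L) sL (Space.vol C.UL)) {sK : Set (Space C.UK)}
    (hsK : IsFundamentalDomain (G2 K) sK (Space.vol C.UK)) :
    ∃ R : ℕ, ∀ (R' : ℕ) (k : LocKer C.UK v₀), R ≤ R' → FlatKer R' k →
      ∀ S' : Ctx.Sys D, S.Inserted S' u₀ k →
      Space.TruncZero sL (C.X.σ.sumOn S'.P.up.toPtKer C.X.hypSet) ∧
        Space.TruncZero sK (C.X.σK.sumOn S'.P.down.toPtKer (FermatAgent.LT.Hyp.hypK K)) := by
  classical
  obtain ⟨Bd, hBd⟩ := exists_bdSet S v₀ u₀
  refine ⟨Bd.sup fun a : Kˣ => (WithZero.log (v₀.valuation K (a : K))).natAbs,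
    fun R' k hR hk S' hI => ?_⟩
  have hv₀ : v₀ ∈ S'.P.T := by rw [hI.T]; exact Finset.mem_insert_self _ _
  have hkv : S'.P.kv v₀ = k := by
    rw [S'.kv_split v₀ hs u₀, hI.at_u, hI.at_other _ (Ctx.next_ne hs u₀),
      hI.at_other _ (Ctx.next_next_ne hs u₀), mul_one, mul_one]
  have hsum : ∀ a ∈ Bd, (a : K) ≠ 1 → SumsAt S' v₀ a := fun a ha ha1 => by
    have h := hk.hyp a ha1 (by
      rw [← Int.natCast_natAbs]
      exact_mod_cast (Finset.le_sup (f := fun a : Kˣ =>
        (WithZero.log (v₀.valuation K (a : K))).natAbs) ha).trans hR)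
    unfold SumsAt kapK
    rw [hkv]
    exact h
  set J : Finset Kˣ := Bd.filter fun a : Kˣ => (a : K) ≠ 1
  constructor
  · set J' := J.filter fun a => ∃ γ, C.X.T.nrm γ = incl (dG a : G2 K)
    let rep : Kˣ → G2 L := fun a =>
      if h : ∃ γ, C.X.T.nrm γ = incl (dG a : G2 K) then h.choose else 1
    have hrep : ∀ a ∈ J', (a ∈ Bd ∧ (a : K) ≠ 1) ∧ C.X.T.nrm (rep a) = incl (dG a : G2 K) :=
      fun a ha => by
      simp only [J', J, Finset.mem_filter] at ha
      simp only [rep, dif_pos ha.2]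
      exact ⟨ha.1, ha.2.choose_spec⟩
    refine eventually_of_classes C.X.σ _ C.X.stable_hypSet (J'.image rep) ?_ ?_ ?_
    · simp only [Finset.mem_image]
      rintro _ ⟨a, ha, rfl⟩
      obtain ⟨⟨-, ha1⟩, hn⟩ := hrep a ha
      show HasLine (C.X.T.nrm _) ∧ ¬IsUnip (C.X.T.nrm _)
      rw [hn]
      exact ⟨(dG_mem_hypK ha1).1.map, fun h => (dG_mem_hypK ha1).2 ((Hyp.isUnip_map_iff _).mp h)⟩
    · intro c hc hJ
      obtain ⟨δ, hconj, γ, hγ, hn⟩ := C.X.exists_mem_cls_nrm C.twist c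
      have hδ : δ ∈ FermatAgent.LT.Hyp.hypK K := by
        obtain ⟨g, hg⟩ := isConj_iff.mp hconj
        have h1 : HasLine (incl (K := K) (L := L) δ) ∧ ¬IsUnip (incl (K := K) (L := L) δ) := by
          rw [← hg, hasLine_conj, isUnip_conj]
          exact hc
        exact ⟨C.twist.hasLine_of_map h1.1, fun h => h1.2 ((Hyp.isUnip_map_iff δ).mpr h)⟩
      obtain ⟨a, ha1, g, hg⟩ := exists_diag hδ
      set γ' := C.X.σ.conj (incl g) γ
      have hn' : C.X.T.nrm γ' = incl (dG a : G2 K) := by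
        rw [C.X.nrm_conj, hn, ← map_mul, ← map_inv, ← map_mul, hg]
      have hcls : C.X.σ.cls γ' = C.X.σ.cls c :=
        (C.X.σ.cls_eq_of_mem ⟨incl g, rfl⟩).trans (C.X.σ.cls_eq_of_mem hγ)
      have haB : a ∉ Bd := fun haB => by
        have haJ : a ∈ J' := by
          simp only [J', J, Finset.mem_filter]
          exact ⟨⟨haB, ha1⟩, γ', hn'⟩
        refine hJ (rep a) (Finset.mem_image_of_mem _ haJ) ?_
        have h2 : γ' ∈ C.X.σ.cls (rep a) :=
          C.X.mem_cls_of_nrm C.twist ((hrep a haJ).2.trans hn'.symm)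
        rw [← C.X.σ.cls_eq_of_mem h2, hcls]
        exact ⟨1, C.X.σ.conj_one c⟩
      have hδ' := mk_dB_ne_one (K := K) ha1
      obtain ⟨Γ, hΓ, hΓe⟩ := C.X.exists_isRep_of_nrm C.twist hn'
      obtain ⟨b, hb⟩ := exists_dG_of_isRep ha1 hΓ
      rw [hb] at hΓe
      obtain ⟨g', hg'⟩ : ∃ g', C.X.σ.conj g' c = γ' := by
        have : γ' ∈ C.X.σ.cls c := hcls ▸ ⟨1, C.X.σ.conj_one γ'⟩
        exact this
      refine term_of_conj C.X.σ _ (g := g') ?_
      rw [hg', ← hΓe]
      exact (hBd S' k hI a haB).2 b (hΓe ▸ hn')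
    · simp only [Finset.mem_image]
      rintro _ ⟨a, ha, rfl⟩
      obtain ⟨⟨haB, ha1⟩, hn⟩ := hrep a ha
      exact hyp_class_L S' hs hv₀ u₀ ha1 (hsum a haB ha1) hn hsL
  · refine eventually_of_classes C.X.σK _ (Hyp.stable_hypK C.X) (J.image dG) ?_ ?_ ?_
    · simp only [J, Finset.mem_image, Finset.mem_filter]
      rintro _ ⟨a, ⟨-, ha1⟩, rfl⟩
      exact dG_mem_hypK ha1
    · intro c hc hJ
      obtain ⟨a, ha1, g, hg⟩ := exists_diag hc
      have hconj : C.X.σK.conj g c = dG a := hg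
      have haB : a ∉ Bd := fun haB => by
        refine hJ (dG a) (Finset.mem_image_of_mem _
          (Finset.mem_filter.mpr ⟨haB, ha1⟩)) ⟨g⁻¹, ?_⟩
        show C.X.σK.conj g⁻¹ (dG a) = c
        rw [← hconj, ← Semilin.conj_mul, inv_mul_cancel, Semilin.conj_one]
      refine term_of_conj C.X.σK _ (g := g) ?_
      rw [hconj]
      exact (hBd S' k hI a haB).1
    · simp only [J, Finset.mem_image, Finset.mem_filter]
      rintro _ ⟨a, ⟨haB, ha1⟩, rfl⟩
      exact hyp_class_K S' hv₀ ha1 (hsum a haB ha1) hsK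

end FermatAgent.LT2.Geo
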