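import Mathlib
import Fermat.Agent.LT.Descent.Uni.Heights
import Fermat.Agent.LT2.Geo.Places

/-!
# Logarithmic heights of families at deep levels

The lift of a coset below to the places above (three or one) has three times its logarithmic
height, and at the place of insertion the glued family has no error in height and no local total
outside the support of the kernel below.
-/

set_option autoImplicit false

noncomputable section

open Matrix IsDedekindDomain NumberField
open scoped MatrixGroups

namespace FermatAgent.LT2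

open FermatAgent.LT
open FermatAgent.LT.Whit (nB)
open FermatAgent.LT.TwistCtx (Fam Pt incl ft KerPair famLog)
open FermatAgent.LT2.Geo (absV_split absV_fixed card_fib univ_fib upVec_e1)

namespace Ctx

variable {K L : Type*} [Field K] [NumberField K] [Field L] [NumberField L] [Algebra K L]
  {C : Ctx K L} {v : HeightOneSpectrum (𝓞 K)}

/-- Heights above are powers of those below. -/
lemma locM_up_e1 (u : C.Fib v) {e : ℕ}
    (he : ∀ x : K, absV u.1 (algebraMap K L x) = absV v x ^ e) (z : Pt C.X v) :
    locM u.1 e1 (C.up u z) = locM v e1 z ^ e := by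
  have h := Geo.locM_up_pow u he e1 z
  rwa [upVec_e1] at h

/-- The generator permutes heights. -/
lemma locM_sg_e1 (u : C.Fib v) (c : G2 L ⧸ C.UL.loc (C.prev u).1) :
    locM u.1 e1 (C.sg u c) = locM (C.prev u).1 e1 c := by
  have h := Geo.locM_sg u e1 c
  rwa [upVec_e1] at h

variable [IsTotallyComplex K] [IsTotallyComplex L] [IsPrincipalIdealRing (𝓞 K)]

/-- The lift has three times the height. -/
theorem famLog_lift (z : Pt C.X v) : famLog (C.liftFam v z) = 3 * Real.log (locM v e1 z) := by
  classical
  unfold famLog liftFam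
  by_cases hv : C.IsSplit v
  · have h : ∀ u : C.Fib v, Real.log (locM u.1 e1 (C.up u z)) =
        Real.log (locM v e1 z) := fun u => by
      rw [locM_up_e1 u (e := 1) (fun x => (absV_split hv u x).trans (pow_one _).symm), pow_one]
    rw [Finset.sum_congr rfl fun u _ => h u, Finset.sum_const, Finset.card_univ, card_fib hv,
      nsmul_eq_mul]
    norm_num
  · obtain ⟨u, hu⟩ := C.exists_fixed' hv
    rw [Finset.sum_eq_single u (fun u' _ h => absurd (C.subsingleton_fib hu u') h)
      (fun h => absurd (Finset.mem_univ _) h),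
      locM_up_e1 u (e := 3) (fun x => absV_fixed u hu x), Real.log_pow]
    norm_num

section Base

variable {v₀ : HeightOneSpectrum (𝓞 K)} (hs : C.IsSplit v₀) {u₀ : C.Fib v₀} {D : C.Bad} {S : Sys D}
  (hone : ∀ u ≠ u₀, S.kS v₀ u = 1) {γ : G2 L} {δ : G2 K}

omit [IsTotallyComplex K] [IsTotallyComplex L] [IsPrincipalIdealRing (𝓞 K)] in
include hs hone in
lemma splitFam_of_base {x : Fam C.B v₀} {z : Pt C.X v₀}
    (h : S.P.loc v₀ (ft C.B γ v₀ x) x * (C.splitA u₀ x z : ℂ) ≠ 0) :
    x = splitFam u₀ (z, coAct hs γ (C.next u₀) z,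
      coAct hs γ (C.next (C.next u₀)) (coAct hs γ (C.next u₀) z)) := by
  classical
  obtain ⟨⟨a, b, c⟩, rfl⟩ := (splitFam_bijective hs u₀).2 x
  obtain ⟨h1, h2⟩ := mul_ne_zero_iff.mp h
  simp only [splitA, splitFam_fst, (C.up_bijective hs u₀).1.eq_iff, ne_eq, Complex.ofReal_eq_zero,
    ite_eq_right_iff, one_ne_zero, imp_false, not_not] at h2
  subst h2
  rw [KerPair.loc, loc_splitFam hs, hone _ (next_ne hs u₀), hone _ (next_next_ne hs u₀)] at h1
  simp only [LocKer.one_k, ne_eq, mul_eq_zero, ite_eq_right_iff, one_ne_zero, imp_false, not_or,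
    not_not] at h1
  obtain ⟨-, rfl, rfl⟩ := h1
  rfl

omit [IsTotallyComplex K] [IsTotallyComplex L] [IsPrincipalIdealRing (𝓞 K)] in
include hs hone in
/-- No error at the place of insertion. -/
theorem famLog_base {β : L} {x : Fam C.B v₀} {z : Pt C.X v₀}
    (h : S.P.loc v₀ (ft C.B (nB β : G2 L) v₀ x) x * (C.splitA u₀ x z : ℂ) ≠ 0) :
    famLog x = 3 * Real.log (locM v₀ e1 z) := by
  classical
  rw [splitFam_of_base hs hone h]
  have he : ∀ (u : C.Fib v₀) (y : K), absV u.1 (algebraMap K L y) = absV v₀ y ^ 1 := fun u y => by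
    rw [pow_one, absV_split hs u y]
  have hstep : ∀ (u : C.Fib v₀) (a : Pt C.X v₀),
      locM v₀ e1 (coAct hs (nB β : G2 L) u a) = locM v₀ e1 a := fun u a => by
    have e := congrArg (fun c => locM u.1 e1 c) (up_coAct hs (nB β : G2 L) u a)
    simpa [FermatAgent.LT.Hyp.locM_nB, locM_up_e1 u (he u)] using e
  have hall : ∀ u' : C.Fib v₀, Real.log (locM u'.1 e1 (splitFam u₀ (z, coAct hs (nB β : G2 L)
      (C.next u₀) z, coAct hs (nB β : G2 L) (C.next (C.next u₀))
        (coAct hs (nB β : G2 L) (C.next u₀) z)) u')) = Real.log (locM v₀ e1 z) := fun u' => by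
    rcases fib_cases u₀ u' with rfl | rfl | rfl
    · rw [splitFam_fst, locM_up_e1 _ (he _), pow_one]
    · rw [splitFam_snd hs, locM_up_e1 _ (he _), pow_one, hstep]
    · rw [splitFam_thd hs, locM_up_e1 _ (he _), pow_one, hstep, hstep]
  unfold famLog
  rw [Finset.sum_congr rfl fun u _ => hall u, Finset.sum_const, Finset.card_univ, card_fib hs,
    nsmul_eq_mul]
  norm_num

omit [IsTotallyComplex K] [IsTotallyComplex L] [IsPrincipalIdealRing (𝓞 K)] in
include hs hone in
/-- At the place of insertion the absolute total vanishes with the kernel below. -/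
theorem absTot_base {H : Subgroup (G2 K)} (G : TwistCtx.Glue S.P γ δ H)
    (hA : G.A v₀ = C.splitA u₀) (hT : v₀ ∈ G.T) {z : Pt C.X v₀}
    (hk : (S.P.kv v₀).k (δ • z) z = 0) : G.absTot v₀ z = 0 := by
  classical
  unfold TwistCtx.Glue.absTot
  refine (tsum_congr fun x => ?_).trans tsum_zero
  rw [norm_eq_zero]
  by_contra hne
  rw [hA] at hne
  refine hne ?_
  have h := G.sum_x v₀ hT z
  rw [hk, tsum_eq_single x fun y hy => by
    rw [hA]
    by_contra hy'
    exact hy ((splitFam_of_base hs hone hy').trans (splitFam_of_base hs hone hne).symm), hA] at h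
  exact h

end Base

end Ctx

end FermatAgent.LT2
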