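import Mathlib
import Fermat.Agent.LT.Descent.Uni.Main
import Fermat.Agent.LT2.Geo.UniHeights

/-!
# The gluing data of the translation classes at deep levels

`UGlue S u₀` is what the bounds of the unipotent integrals use of a gluing of the class of the unit
translation above with its class below: a link with the given coordinate at the place of `u₀` and
bounds for the heights and local totals at every place.
-/

set_option autoImplicit false

noncomputable section

open Matrix IsDedekindDomain NumberField Filter MeasureTheory
open scoped MatrixGroups

namespace FermatAgent.LT2.Ctx

open FermatAgent.LT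
open FermatAgent.LT.Whit (nB)
open FermatAgent.LT.TwistCtx (Fam Pt incl ft KerPair Glue BaseWt)

variable {K L : Type*} [Field K] [NumberField K] [Field L] [NumberField L] [Algebra K L]
  {C : Ctx K L} [IsTotallyComplex K] [IsTotallyComplex L] [IsPrincipalIdealRing (𝓞 K)] {D : C.Bad}
  (S : Sys D)

/-- The gluing data of the translation classes, with the given coordinate at one split place. -/
structure UGlue {v₀ : HeightOneSpectrum (𝓞 K)} (u₀ : C.Fib v₀)
    extends TwistCtx.UniGlue S.P where
  base_eq : G.A v₀ = C.splitA u₀
  one_le : ∀ v, 1 ≤ Cb v

end FermatAgent.LT2.Ctx
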