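import Mathlib
import Fermat.Agent.LT2.Geo.Flat
import Fermat.Agent.LT2.Geo.UniTerm

/-!
# A primitive on one side is bounded

Along the coordinate of a place with a flat kernel the affine part of a primitive is killed by the
two sums of the kernel; what remains is exponentially small in the height, and the weighted cosets
of a height range are few.
-/

set_option autoImplicit false

noncomputable section

open Matrix IsDedekindDomain NumberField Filter MeasureTheory
open scoped MatrixGroups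

namespace FermatAgent.LT2.Ctx

open FermatAgent.LT
open FermatAgent.LT.Whit (nB nB_mem_locK)
open FermatAgent.LT.TwistCtx (Fam Pt incl ft KerPair Glue UniGlue famLog)

variable {K L : Type*} [Field K] [NumberField K] [Field L] [NumberField L] [Algebra K L]
  [IsTotallyComplex K] [IsTotallyComplex L] [IsPrincipalIdealRing (𝓞 K)]
  {C : Ctx K L} {D : C.Bad} {S : Sys D} {v₀ : HeightOneSpectrum (𝓞 K)} {u₀ : C.Fib v₀}

variable (hs : C.IsSplit v₀) (hone : ∀ u ≠ u₀, S.kS v₀ u = 1) {R : ℕ}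
  (hflat : Geo.FlatKer R (S.kS v₀ u₀))

variable (UG : UGlue S u₀)

section

omit [IsTotallyComplex K] [IsTotallyComplex L] [IsPrincipalIdealRing (𝓞 K)]

include hs hone in
lemma kv_base : S.P.kv v₀ = S.kS v₀ u₀ := by
  rw [S.kv_split v₀ hs u₀, hone _ (next_ne hs u₀), hone _ (next_next_ne hs u₀), mul_one, mul_one]

include hflat in
/-- A flat kernel is nontrivial, so its place is exceptional. -/
lemma mem_T_of_flat : v₀ ∈ S.P.T := by
  classical
  by_contra hT
  obtain ⟨hfin, h, -⟩ := hflat.uni_fin, hflat.uni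
  rw [S.kS_one v₀ hT] at h hfin
  have hU : C.UK.loc v₀ = locK v₀ := C.UK_else v₀ fun hS => hT (S.S_sub hS)
  set f : Pt C.X v₀ → ℝ := fun c => if (nB 1 : G2 K) • c = c then Uni.pw c else 0
  have e : ∀ c : Pt C.X v₀,
      (Uni.pw c : ℂ) * (1 : LocKer C.UK v₀).k ((nB 1 : G2 K) • c) c = (f c : ℂ) := fun c => by
    simp only [LocKer.one_k, f]; split_ifs <;> simp
  rw [tsum_congr e, ← Complex.ofReal_tsum, Complex.ofReal_eq_zero] at h
  have hsf : Summable f := summable_of_hasFiniteSupport (hfin.subset fun c hc => by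
    have : (f c : ℂ) ≠ 0 := by exact_mod_cast hc
    rw [← e] at this
    obtain ⟨h1, h2⟩ := mul_ne_zero_iff.mp this
    exact ⟨Complex.ofReal_ne_zero.mp h1, h2⟩)
  have hb : f (QuotientGroup.mk 1) = 1 := by
    simp only [f]
    rw [if_pos, Uni.pw_base]
    rw [MulAction.Quotient.smul_mk, QuotientGroup.eq, smul_eq_mul, mul_one, mul_one, hU]
    exact inv_mem (nB_mem_locK (by simp))
  have := hsf.le_tsum (QuotientGroup.mk 1) fun c _ => by
    simp only [f]; split_ifs
    exacts [Uni.pw_nonneg c, le_rfl]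
  rw [h, hb] at this
  exact absurd this (by norm_num)

include hs hone hflat in
/-- The two sums against the unit translation. -/
lemma hasSum_kap0 :
    {d : Pt C.X v₀ | Uni.pw d ≠ 0 ∧ S.P.kap0 v₀ d ≠ 0}.Finite ∧
      HasSum (fun d => (Uni.pw d : ℂ) * S.P.kap0 v₀ d) 0 ∧
      HasSum (fun d => (Uni.pw d : ℂ) * S.P.kap0 v₀ d * (Real.log (locM v₀ e1 d) : ℂ)) 0 := by
  obtain ⟨hfin, h0, h1⟩ := hflat.uni_fin, hflat.uni
  simp only [KerPair.kap0, kv_base hs hone]
  refine ⟨hfin, ?_, ?_⟩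
  · rw [← h0]
    refine (summable_of_hasFiniteSupport (hfin.subset fun d hd => ?_)).hasSum
    obtain ⟨a, b⟩ := mul_ne_zero_iff.mp hd
    exact ⟨Complex.ofReal_ne_zero.mp a, b⟩
  · rw [← h1, tsum_congr fun d => mul_comm _ _]
    refine (summable_of_hasFiniteSupport (hfin.subset fun d hd => ?_)).hasSum
    obtain ⟨a, b⟩ := mul_ne_zero_iff.mp (left_ne_zero_of_mul hd)
    exact ⟨Complex.ofReal_ne_zero.mp a, b⟩

include hflat in
lemma mem_T_base : v₀ ∈ UG.G.T := UG.G.subset (mem_T_of_flat hflat)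

include hs hone hflat in
lemma absSum_updC_eq_zero {z : FinCoset C.X.UK} {d : Pt C.X v₀} (hd : S.P.kap0 v₀ d = 0) :
    UG.G.absSum (updC z v₀ d) = 0 := by
  unfold Glue.absSum
  split_ifs
  · refine Finset.prod_eq_zero (mem_T_base hflat UG) ?_
    rw [updC_self]
    exact absTot_base hs hone UG.G UG.base_eq (mem_T_base hflat UG) hd
  · rfl

end

/-- The shape of a primitive on one side: affine in the height with coefficient the kernel, up to
an exponentially small part. -/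
def IsPrimShape (P : ℝ → FinCoset C.X.UK → ℂ) (K' : ℝ) : Prop :=
  (∀ s z, z ∉ UG.suppGe (s + UG.uLow) → P s z = 0) ∧
    ∀ s z, z.1 v₀ = QuotientGroup.mk 1 → ∃ a b : ℂ, ∀ d, ∃ r : ℂ,
      P s (updC z v₀ d) = (Uni.Phi (updC z v₀ d) : ℂ) *
        (S.P.kap0 v₀ d * (a + (Real.log (locM v₀ e1 d) : ℂ) * b) + r) ∧
      ‖r‖ ≤ K' * Real.exp ((s - Uni.lh (updC z v₀ d)) / 2) ∧ (S.P.kap0 v₀ d = 0 → r = 0)

omit [IsTotallyComplex L] in
open Classical in
include hs hone hflat in
/-- A primitive is bounded. -/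
theorem exists_sum_le {P : ℝ → FinCoset C.X.UK → ℂ} {K' : ℝ} (hK' : 0 ≤ K')
    (hP : IsPrimShape UG P K') :
    ∃ M : ℝ, 0 ≤ M ∧ ∀ (s : ℝ) (Z : Finset (FinCoset C.X.UK)),
      UG.suppGe (s + UG.uLow) ⊆ Z → ‖∑ z ∈ Z, P s z‖ ≤ M := by
  have : Subsingleton (InfinitePlace K) := FermatAgent.LT.Hyp.subsingleton_place C.X
  obtain ⟨hfin, hmom0, hmom1⟩ := hasSum_kap0 hs hone hflat
  obtain ⟨hzero, hform⟩ := hP
  set Fd := hfin.toFinset
  set W₀ := ∑ d ∈ Fd, Uni.pw d * Real.exp (-(Real.log (locM v₀ e1 d)) / 2) with hW₀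
  have hW₀0 : 0 ≤ W₀ := Finset.sum_nonneg fun d _ =>
    mul_nonneg (Uni.pw_nonneg d) (Real.exp_pos _).le
  have hfib : ∀ s z, z.1 v₀ = QuotientGroup.mk 1 →
      ‖∑' d, P s (updC z v₀ d)‖ ≤ K' * W₀ * Real.exp (s / 2) * Real.exp (Uni.lh z / 2) := by
    intro s z hz
    obtain ⟨a, b, hab⟩ := hform s z hz
    choose r hr hrb hr0 using hab
    set F : Pt C.X v₀ → ℂ := fun d => (Uni.pw d : ℂ) * r d
    have hF0 : ∀ d ∉ Fd, F d = 0 := fun d hd => by
      by_cases hp : Uni.pw d = 0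
      · simp [F, hp]
      · simp only [F]
        rw [hr0 d (by_contra fun hk => hd ((Set.Finite.mem_toFinset _).mpr ⟨hp, hk⟩)), mul_zero]
    have hF : HasSum F (∑ d ∈ Fd, F d) := hasSum_sum_of_ne_finset_zero hF0
    have htot := (((hmom0.mul_left a).add (hmom1.mul_left b)).add hF).mul_left (Uni.Phi z : ℂ)
    rw [mul_zero, mul_zero, zero_add, zero_add] at htot
    have htot' : HasSum (fun d => P s (updC z v₀ d)) ((Uni.Phi z : ℂ) * ∑ d ∈ Fd, F d) := by
      refine htot.congr_fun fun d => ?_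
      rw [hr d, (UniGlue.Phi_updC z hz d).1]
      simp only [F]
      push_cast
      ring
    rw [htot'.tsum_eq, norm_mul, Complex.norm_real, Real.norm_eq_abs,
      abs_of_nonneg (Uni.Phi_nonneg z)]
    have hb : ‖∑ d ∈ Fd, F d‖ ≤ K' * Real.exp ((s - Uni.lh z) / 2) * W₀ := by
      rw [hW₀, Finset.mul_sum]
      refine (norm_sum_le _ _).trans (Finset.sum_le_sum fun d _ => ?_)
      simp only [F, norm_mul, Complex.norm_real, Real.norm_eq_abs,
        abs_of_nonneg (Uni.pw_nonneg d)]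
      refine (mul_le_mul_of_nonneg_left (hrb d) (Uni.pw_nonneg d)).trans (le_of_eq ?_)
      rw [(UniGlue.Phi_updC z hz d).2, show (s - (Uni.lh z + Real.log (locM v₀ e1 d))) / 2 =
        (s - Uni.lh z) / 2 + -Real.log (locM v₀ e1 d) / 2 by ring, Real.exp_add]
      ring
    calc Uni.Phi z * ‖∑ d ∈ Fd, F d‖
        ≤ Real.exp (Uni.lh z) * (K' * Real.exp ((s - Uni.lh z) / 2) * W₀) :=
          mul_le_mul (Uni.Phi_le_exp z) hb (norm_nonneg _) (Real.exp_pos _).le
      _ = _ := by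
          rw [show K' * W₀ * Real.exp (s / 2) * Real.exp (Uni.lh z / 2) =
            K' * W₀ * (Real.exp (s / 2) * Real.exp (Uni.lh z / 2)) by ring, ← Real.exp_add,
            show s / 2 + Uni.lh z / 2 = Uni.lh z + (s - Uni.lh z) / 2 by ring, Real.exp_add]
          ring
  obtain ⟨M, hM⟩ := UG.exists_sum_le_of_fibre (mem_T_base hflat UG) (UG.one_le v₀)
    (mul_nonneg hK' hW₀0) hzero hfib
  exact ⟨M, hM⟩

/-- The primitive below. -/
def primK (S : Sys D) (s : ℝ) (z : FinCoset C.X.UK) : ℂ :=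
  (Uni.Phi z : ℂ) * (S.P.kapK z * (Uni.profK C.X S.P.k).prim (s - Uni.lh z))

/-- The primitive above. -/
def primL (s : ℝ) (z : FinCoset C.X.UK) : ℂ :=
  (Uni.Phi z : ℂ) * ∑' x, UG.kapL x z * (Uni.profL C.X S.P.k).prim (s - Uni.Prof.fh x)

omit [IsTotallyComplex L] in
open Classical in
include hflat in
/-- The base primitive has the required shape. -/
theorem primShape_K : IsPrimShape UG (primK S) (UG.absC * (Uni.profK C.X S.P.k).size) := by
  set B := Uni.profK C.X S.P.k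
  refine ⟨fun s z hz => ?_, fun s z hz => ?_⟩
  · by_cases hΦ : Uni.Phi z = 0
    · simp [primK, hΦ]
    · rw [primK, UG.kapK_mul_eq_zero (fun _ h => Uni.Prof.prim_eq_zero _ h.le) hz hΦ, mul_zero]
  set rest : ℂ := if ∀ v ∉ UG.G.T, (nB 1 : G2 K) • z.1 v = z.1 v then
      ∏ v ∈ UG.G.T.erase v₀, S.P.kap0 v (z.1 v) else 0
  refine ⟨rest * (B.ctr - ((s - Uni.lh z : ℝ) : ℂ) * B.mass), rest * B.mass, fun d => ?_⟩
  set z₁ := updC z v₀ d
  have hk : S.P.kapK z₁ = S.P.kap0 v₀ d * rest := by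
    rw [UG.kapK_eq_KK, UG.KK_updC (mem_T_base hflat UG)]
  refine ⟨S.P.kapK z₁ * B.err (s - Uni.lh z₁), ?_, ?_, fun h => by rw [hk, h, zero_mul, zero_mul]⟩
  · rw [primK, show B.prim (s - Uni.lh z₁) =
      B.ctr - ((s - Uni.lh z₁ : ℝ) : ℂ) * B.mass + B.err (s - Uni.lh z₁) by rw [Uni.Prof.err]; ring,
      mul_add (S.P.kapK z₁), hk, (UniGlue.Phi_updC z hz d).2]
    push_cast
    ring
  · rw [norm_mul]
    refine (mul_le_mul ((UG.norm_kapK_le z₁).trans (UG.absSum_le z₁)) (B.norm_err_le _)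
      (norm_nonneg _) (UG.absC_nonneg)).trans (le_of_eq ?_)
    ring

omit [IsTotallyComplex L] in
open Classical in
include hs hone hflat in
/-- The primitive above has the required shape. -/
theorem primShape_L : IsPrimShape UG (primL UG)
    (UG.absC * ((Uni.profL C.X S.P.k).size * Real.exp (UG.devC / 2))) := by
  set A := Uni.profL C.X S.P.k
  refine ⟨fun s z hz => ?_, fun s z hz => ?_⟩
  · by_cases hΦ : Uni.Phi z = 0
    · simp [primL, hΦ]
    · rw [primL, UG.tsum_kapL_eq_zero (fun _ h => Uni.Prof.prim_eq_zero _ h.le) hz hΦ, mul_zero]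
  set rest : ℂ := if ∀ v ∉ UG.G.T, (nB 1 : G2 K) • z.1 v = z.1 v then
      ∏ v ∈ UG.G.T.erase v₀, S.P.kap0 v (z.1 v) else 0
  obtain ⟨b₀, hb₀⟩ := UG.exists_dev_updC (mem_T_base hflat UG)
    (fun x z h => famLog_base hs hone (by rwa [UG.base_eq] at h)) z
  refine ⟨rest * (A.ctr - ((s - Uni.lh z : ℝ) : ℂ) * A.mass) + A.mass * b₀, rest * A.mass,
    fun d => ?_⟩
  set z₁ := updC z v₀ d
  set X := (UG.finite_kapL z₁).toFinset
  have hX : ∀ x ∉ X, UG.kapL x z₁ = 0 := fun x hx =>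
    by_contra fun hne => hx ((Set.Finite.mem_toFinset _).mpr hne)
  have hts : ∀ f : FinCoset C.X.UL → ℂ, ∑' x, UG.kapL x z₁ * f x = ∑ x ∈ X, UG.kapL x z₁ * f x :=
    fun f => tsum_eq_sum fun x hx => by rw [hX x hx, zero_mul]
  have hk : S.P.kapK z₁ = S.P.kap0 v₀ d * rest := by
    rw [UG.kapK_eq_KK, UG.KK_updC (mem_T_base hflat UG)]
  have hsum : ∑ x ∈ X, UG.kapL x z₁ = S.P.kapK z₁ := by
    rw [← (UG.hasSum_kapL z₁).tsum_eq]
    exact (tsum_eq_sum hX).symm
  have habs : ∑ x ∈ X, ‖UG.kapL x z₁‖ = UG.G.absSum z₁ := by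
    rw [← (UG.G.hasSum_abs z₁).tsum_eq]
    exact (tsum_eq_sum fun x hx => norm_eq_zero.mpr (hX x hx)).symm
  refine ⟨∑ x ∈ X, UG.kapL x z₁ * A.err (s - Uni.Prof.fh x), ?_, ?_, fun h => ?_⟩
  · have hdev := hb₀ d
    rw [hts] at hdev
    have hprim : ∀ a : ℝ, A.prim a = A.ctr - (a : ℂ) * A.mass + A.err a := fun a => by
      rw [Uni.Prof.err]; ring
    have e : ∀ x, UG.kapL x z₁ * A.prim (s - Uni.Prof.fh x) =
        UG.kapL x z₁ * (A.ctr - ((s - Uni.lh z₁ : ℝ) : ℂ) * A.mass) +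
          A.mass * (UG.kapL x z₁ * ((Uni.Prof.fh x - Uni.lh z₁ : ℝ) : ℂ)) +
          UG.kapL x z₁ * A.err (s - Uni.Prof.fh x) := fun x => by
      rw [hprim]; push_cast; ring
    rw [primL, hts, Finset.sum_congr rfl fun x _ => e x, Finset.sum_add_distrib,
      Finset.sum_add_distrib, ← Finset.sum_mul, ← Finset.mul_sum, hsum, hk, hdev,
      (UniGlue.Phi_updC z hz d).2]
    push_cast
    ring
  · refine le_trans ?_ (le_of_eq (show UG.absC * (Real.exp ((s - Uni.lh z₁) / 2) *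
      (A.size * Real.exp (UG.devC / 2))) = _ by ring))
    refine (norm_sum_le _ _).trans (le_trans ?_ (mul_le_mul_of_nonneg_right (UG.absSum_le z₁)
      (mul_nonneg (Real.exp_pos _).le (mul_nonneg A.size_nonneg (Real.exp_pos _).le))))
    rw [← habs, Finset.sum_mul]
    refine Finset.sum_le_sum fun x hx => ?_
    rw [norm_mul]
    refine mul_le_mul_of_nonneg_left ((A.norm_err_le _).trans ?_) (norm_nonneg _)
    have hd := abs_le.mp (UG.abs_fh_sub_lh ((Set.Finite.mem_toFinset _).mp hx))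
    calc A.size * Real.exp ((s - Uni.Prof.fh x) / 2)
        ≤ A.size * Real.exp ((s - Uni.lh z₁) / 2 + UG.devC / 2) :=
          mul_le_mul_of_nonneg_left (Real.exp_le_exp.mpr (by linarith)) A.size_nonneg
      _ = _ := by rw [Real.exp_add]; ring
  · refine Finset.sum_eq_zero fun x hx => ?_
    exfalso
    have h0 := (UG.G.hasSum_abs z₁)
    rw [absSum_updC_eq_zero hs hone hflat UG h] at h0
    exact (Set.Finite.mem_toFinset _).mp hx
      (norm_eq_zero.mp (congrFun ((hasSum_zero_iff_of_nonneg fun x => norm_nonneg _).mp h0) x))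

end FermatAgent.LT2.Ctx
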