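import Mathlib
import Fermat.Agent.LT2.Geo.UniDelta

/-!
# The truncated unipotent integrals stay bounded on average

Given gluing data of the translation classes and a flat component at one split place, the truncated
unipotent integrals at `ε = exp t` are finite sums of functions of `t` with uniformly bounded
primitives, so they satisfy `Space.TruncBdd` above and below.
-/

set_option autoImplicit false

noncomputable section

open Matrix IsDedekindDomain NumberField Filter MeasureTheory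
open scoped MatrixGroups

namespace FermatAgent.LT2

/-- An integrand which is a finite sum with bounded primitives has bounded integrals. -/
theorem norm_integral_le_of_sums {ι : Type*} {J : ℝ → ℂ} {m : ℂ} (hm : m ≠ 0) {n : ℝ} (hn : 0 < n)
    {f F : ι → ℝ → ℂ} (Zs : ℝ → Finset ι) (hmono : ∀ a b, a ≤ b → Zs b ⊆ Zs a) {s₀ M : ℝ}
    (hJ : ∀ s, s ≤ s₀ → ∀ Z, Zs s ⊆ Z → m * J (n * s) = ∑ i ∈ Z, f i s)
    (hint : ∀ i a b, a ≤ b → IntervalIntegrable (f i) volume a b ∧
      ∫ s in a..b, f i s = F i a - F i b)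
    (hF : ∀ s Z, Zs s ⊆ Z → ‖∑ i ∈ Z, F i s‖ ≤ M) :
    ∃ M' t₀ : ℝ, ∀ A B, A ≤ B → B ≤ t₀ →
      IntervalIntegrable J volume A B ∧ ‖∫ t in A..B, J t‖ ≤ M' := by
  refine ⟨n * (2 * M / ‖m‖), n * s₀, fun A B hAB hB => ?_⟩
  set a := A / n
  set b := B / n
  have hab : a ≤ b := div_le_div_of_nonneg_right hAB hn.le
  have hb : b ≤ s₀ := (div_le_iff₀ hn).mpr (by linarith [mul_comm n s₀])
  set Z := Zs a
  have heq : Set.EqOn (fun s => ∑ i ∈ Z, f i s) (fun s => m * J (n * s)) (Set.uIcc a b) :=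
    fun s hs => by
      rw [Set.uIcc_of_le hab] at hs
      exact (hJ s (hs.2.trans hb) Z (hmono a s hs.1)).symm
  have isum : IntervalIntegrable (fun s => ∑ i ∈ Z, f i s) volume a b := by
    have := IntervalIntegrable.sum Z fun i _ => (hint i a b hab).1
    rwa [Finset.sum_fn] at this
  have iscaled : IntervalIntegrable (fun s => m * J (n * s)) volume a b :=
    isum.congr fun s hs => heq (Set.uIoc_subset_uIcc hs)
  have iJn : IntervalIntegrable (fun s => J (n * s)) volume a b := by
    simpa [← mul_assoc, inv_mul_cancel₀ hm] using iscaled.const_mul m⁻¹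
  have hna : n * a = A := mul_div_cancel₀ A hn.ne'
  have hnb : n * b = B := mul_div_cancel₀ B hn.ne'
  refine ⟨(IntervalIntegrable.comp_mul_left_iff (f := J) hn.ne').mp iJn, ?_⟩
  have hbd : ‖∫ s in a..b, m * J (n * s)‖ ≤ 2 * M := by
    rw [← intervalIntegral.integral_congr heq, intervalIntegral.integral_finsetSum fun i _ =>
      (hint i a b hab).1, Finset.sum_congr rfl fun i _ => (hint i a b hab).2,
      Finset.sum_sub_distrib,
      two_mul]
    exact (norm_sub_le _ _).trans (add_le_add (hF _ _ subset_rfl) (hF _ _ (hmono a b hab)))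
  rw [intervalIntegral.integral_const_mul, norm_mul,
    intervalIntegral.integral_comp_mul_left J hn.ne',
    hna, hnb, Complex.real_smul, norm_mul, Complex.norm_real, Real.norm_eq_abs,
    abs_of_pos (inv_pos.mpr hn)] at hbd
  have hm' : 0 < ‖m‖ := norm_pos_iff.mpr hm
  calc ‖∫ t in A..B, J t‖ = n * ((‖m‖ * (n⁻¹ * ‖∫ t in A..B, J t‖)) / ‖m‖) := by
        field_simp
    _ ≤ n * (2 * M / ‖m‖) :=
        mul_le_mul_of_nonneg_left (div_le_div_of_nonneg_right hbd hm'.le) hn.le

namespace Ctx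

open FermatAgent.LT
open FermatAgent.LT.Whit (nB)
open FermatAgent.LT.TwistCtx (Fam Pt incl ft KerPair Glue UniGlue)

variable {K L : Type*} [Field K] [NumberField K] [Field L] [NumberField L] [Algebra K L]
  {C : Ctx K L}

variable [IsTotallyComplex L]

variable [IsTotallyComplex K]

variable [IsPrincipalIdealRing (𝓞 K)] {D : C.Bad} {S : Sys D} {v₀ : HeightOneSpectrum (𝓞 K)}
  {u₀ : C.Fib v₀} (UG : UGlue S u₀)
  {sL : Set (Space C.UL)} (hsL : IsFundamentalDomain (G2 L) sL (Space.vol C.UL))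
  {sK : Set (Space C.UK)} (hsK : IsFundamentalDomain (G2 K) sK (Space.vol C.UK))

omit [IsTotallyComplex L] in
lemma suppGe_mono {a b : ℝ} (h : a ≤ b) : UG.suppGe b ⊆ UG.suppGe a := fun z hz => by
  rw [UniGlue.mem_suppGe] at hz ⊢
  exact ⟨hz.1, h.trans hz.2⟩

variable (hs : C.IsSplit v₀) (hone : ∀ u ≠ u₀, S.kS v₀ u = 1) {R : ℕ}
  (hflat : Geo.FlatKer R (S.kS v₀ u₀))

omit [IsTotallyComplex L] in
include UG hsK hs hone hflat in
/-- The truncated unipotent sum of the base is bounded. -/
theorem bounded_uniK_of_uGlue :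
    Space.TruncBdd sK (C.X.σK.sumOn S.P.down.toPtKer (FermatAgent.LT.Ctx.uniK K)) := by
  refine ⟨fun ε hε => ?_, ?_⟩
  · have h := (UG.uni_integral_K hsK (Real.log ε)).1
    rw [one_mul, Real.exp_log hε] at h
    rwa [FermatAgent.LT.Ctx.uniK_eq_cls C.X]
  set P₀ := Uni.profK C.X S.P.k
  rw [FermatAgent.LT.Ctx.uniK_eq_cls C.X]
  obtain ⟨c, hc⟩ := UG.exists_lh_le
  obtain ⟨M, -, hM⟩ := exists_sum_le hs hone hflat UG
    (mul_nonneg (UG.absC_nonneg) P₀.size_nonneg) (primShape_K hflat UG)
  refine norm_integral_le_of_sums (m := (UG.G.subC.index : ℂ)) (Nat.cast_ne_zero.mpr UG.index_ne)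
    one_pos (fun s => UG.suppGe (s + UG.uLow)) (fun a b h => suppGe_mono UG (by linarith))
    (s₀ := P₀.m - c) (f := fun z s => (Uni.Phi z : ℂ) * (S.P.kapK z * P₀.low (s - Uni.lh z)))
    (F := fun z s => primK S s z) (fun s hs Z hZ => ?_) (fun z a b hab => ?_) hM
  · exact (UG.uni_integral_K hsK s).2 Z hZ fun z hz => by linarith [hc z hz]
  · obtain ⟨h1, h2⟩ := P₀.integral_low (-Uni.lh z) hab
    simp only [sub_eq_add_neg (G := ℝ), primK]
    refine ⟨(h1.const_mul _).const_mul _, ?_⟩
    rw [intervalIntegral.integral_const_mul, intervalIntegral.integral_const_mul, h2]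
    ring

include UG hsL hs hone hflat in
/-- The truncated unipotent sum above is bounded. -/
theorem bounded_uniL_of_uGlue :
    Space.TruncBdd sL (C.X.σ.sumOn S.P.up.toPtKer (C.X.parSet \ C.X.idSet)) := by
  refine ⟨fun ε hε => ?_, ?_⟩
  · have h := (UG.uni_integral_L hsL (Real.log ε / 3)).1
    rw [show 3 * (Real.log ε / 3) = Real.log ε by ring, Real.exp_log hε] at h
    rwa [FermatAgent.LT.Ctx.uniL_eq_cls C.X C.twist]
  set P₀ := Uni.profL C.X S.P.k
  rw [FermatAgent.LT.Ctx.uniL_eq_cls C.X C.twist]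
  obtain ⟨c, hc⟩ := UG.exists_lh_le
  obtain ⟨M, -, hM⟩ := exists_sum_le hs hone hflat UG
    (mul_nonneg (UG.absC_nonneg) (mul_nonneg P₀.size_nonneg (Real.exp_pos _).le))
    (primShape_L hs hone hflat UG)
  refine norm_integral_le_of_sums (m := (UG.G.subC.index : ℂ)) (Nat.cast_ne_zero.mpr UG.index_ne)
    three_pos (fun s => UG.suppGe (s + UG.uLow)) (fun a b h => suppGe_mono UG (by linarith))
    (s₀ := P₀.m - c - UG.devC)
    (f := fun z s => (Uni.Phi z : ℂ) * ∑' x, UG.kapL x z * P₀.low (s - Uni.Prof.fh x))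
    (F := fun z s => primL UG s z) (fun s hs Z hZ => ?_) (fun z a b hab => ?_) hM
  · refine (UG.uni_integral_L hsL s).2 Z hZ fun x z hΦ hx => ?_
    have h1 := hc z (UG.mem_uSupp_of_kapL hΦ hx)
    have h2 := abs_le.mp (UG.abs_fh_sub_lh hx)
    linarith
  · set X := (UG.finite_kapL z).toFinset
    have hX : ∀ g : FinCoset C.X.UL → ℂ, ∑' x, UG.kapL x z * g x = ∑ x ∈ X, UG.kapL x z * g x :=
      UG.tsum_kapL_eq_sum z
    simp only [primL, hX, sub_eq_add_neg (G := ℝ)]
    have i1 : ∀ x ∈ X, IntervalIntegrable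
        (fun s => UG.kapL x z * P₀.low (s + -Uni.Prof.fh x)) volume a b :=
      fun x _ => (P₀.integral_low _ hab).1.const_mul _
    have i1s : IntervalIntegrable (fun s => ∑ x ∈ X, UG.kapL x z * P₀.low (s + -Uni.Prof.fh x))
        volume a b := by
      have := IntervalIntegrable.sum X i1
      rwa [Finset.sum_fn] at this
    refine ⟨i1s.const_mul _, ?_⟩
    rw [intervalIntegral.integral_const_mul, intervalIntegral.integral_finsetSum i1,
      Finset.sum_congr rfl fun x _ => by
        rw [intervalIntegral.integral_const_mul, (P₀.integral_low _ hab).2, mul_sub],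
      Finset.sum_sub_distrib]
    ring

end Ctx

end FermatAgent.LT2
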