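import Mathlib
import Fermat.Agent.LT2.Geo.UniBound
import Fermat.Agent.LT2.Geo.Near

/-!
# The unipotent parts of a system with a flat component

The gluing data of the unit translation exist (`exists_uGlue`): linked coordinates have comparable
heights and bounded local totals.  With the bounds of the truncated integrals this gives
`uni_parts`, the hypothesis of the trace identity on the unipotent parts.
-/

set_option autoImplicit false

noncomputable section

open Matrix IsDedekindDomain NumberField Filter MeasureTheory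
open scoped MatrixGroups

namespace FermatAgent.LT2.Ctx

open FermatAgent.LT
open FermatAgent.LT.Whit (nB)
open FermatAgent.LT.TwistCtx (Fam Pt incl ft KerPair Glue famLog)
open FermatAgent.LT2.Geo (absV_split absV_fixed card_fib univ_fib LinkAt)

variable {K L : Type*} [Field K] [NumberField K] [Field L] [NumberField L] [Algebra K L]
  [IsTotallyComplex K] [IsTotallyComplex L] [IsPrincipalIdealRing (𝓞 K)]
  {C : Ctx K L} {D : C.Bad} (S : Sys D) {v : HeightOneSpectrum (𝓞 K)}

omit [IsTotallyComplex K] [IsTotallyComplex L] [IsPrincipalIdealRing (𝓞 K)] in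
/-- Linked coordinates have comparable heights. -/
lemma exists_link_comp {A : Fam C.B v → Pt C.X v → ℝ} (hA : LinkAt (uB (1 : K)) v A) :
    ∃ (u : C.Fib v) (C' : ℝ), 1 ≤ C' ∧ ∀ x z, A x z ≠ 0 → ∀ e : ℕ,
      (∀ y : K, absV u.1 (algebraMap K L y) = absV v y ^ e) →
        locM u.1 e1 (x u) ≤ C' * locM v e1 z ^ e ∧ locM v e1 z ^ e ≤ C' * locM u.1 e1 (x u) := by
  obtain ⟨u, t, Q, htc, hQ⟩ := hA
  rw [show upGL (L := L) (uB (1 : K)) = uB (1 : L) from
    Units.ext (by ext i j; fin_cases i <;> fin_cases j <;> simp)] at htc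
  obtain ⟨c, hc⟩ := FermatAgent.LT.Ctx.mk_eq_nB_of_commute htc
  obtain ⟨C', hC', hcomp⟩ := Hyp.exists_locM_comp (U := C.UL) (v := u.1) Q
  refine ⟨u, C', hC', fun x z h e he => ?_⟩
  obtain ⟨g, rfl⟩ := QuotientGroup.mk_surjective z
  obtain ⟨q, hq, hxu⟩ := hQ x _ h g rfl
  obtain ⟨h1, h2⟩ := hcomp q hq (ProjGenLinGroup.mk t * incl (K := K) (L := L) g) e1
  have hbase : locM u.1 e1 (QuotientGroup.mk (ProjGenLinGroup.mk t * incl (K := K) (L := L) g) :
      G2 L ⧸ C.UL.loc u.1) = locM v e1 (QuotientGroup.mk g : Pt C.X v) ^ e := by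
    rw [← smul_eq_mul, ← MulAction.Quotient.smul_mk, hc, FermatAgent.LT.Hyp.locM_nB, ← C.up_mk,
      locM_up_e1 u he]
  rw [← hxu, hbase] at h1 h2
  exact ⟨h1, h2⟩

variable (β : L)

/-- The glued heights differ boundedly from the height below. -/
theorem exists_famLog_bound {A : Fam C.B v → Pt C.X v → ℝ} (hA : LinkAt (uB (1 : K)) v A) :
    ∃ D' : ℝ, 0 ≤ D' ∧ ∀ x z, S.P.loc v (ft C.B (nB β : G2 L) v x) x * (A x z : ℂ) ≠ 0 →
      |famLog x - 3 * Real.log (locM v e1 z)| ≤ D' := by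
  classical
  obtain ⟨u₀, C', hC', hlink⟩ := exists_link_comp hA
  have hne : ∀ {x z}, S.P.loc v (ft C.B (nB β : G2 L) v x) x * (A x z : ℂ) ≠ 0 → A x z ≠ 0 :=
    fun h h0 => right_ne_zero_of_mul h (by simp [h0])
  by_cases hv : C.IsSplit v
  · choose Ck hC1 hC using fun u : C.Fib v => FermatAgent.LT.Hyp.exists_ratio (S.P.kw u.1)
    refine ⟨3 * Real.log C' + 2 * Real.log (Ck (C.next u₀)) +
        Real.log (Ck (C.next (C.next u₀))), ?_, fun x z h => ?_⟩
    · have := Real.log_nonneg hC'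
      have := Real.log_nonneg (hC1 (C.next u₀))
      have := Real.log_nonneg (hC1 (C.next (C.next u₀)))
      linarith
    have he : ∀ (u : C.Fib v) (y : K), absV u.1 (algebraMap K L y) = absV v y ^ 1 := fun u y => by
      rw [pow_one, absV_split hv u y]
    have hloc := left_ne_zero_of_mul h
    have hstep : ∀ u : C.Fib v, |Real.log (locM u.1 e1 (x u)) -
        Real.log (locM (C.prev u).1 e1 (x (C.prev u)))| ≤ Real.log (Ck u) := fun u => by
      obtain ⟨h1, h2⟩ := hC u _ _ (Finset.prod_ne_zero_iff.mp hloc u (Finset.mem_univ u)) e1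
      rw [C.ft_apply, FermatAgent.LT.Hyp.locM_nB, locM_sg_e1] at h1 h2
      exact FermatAgent.LT.Ctx.abs_log_sub_le (locM_pos _ e1_ne_zero _) (locM_pos _ e1_ne_zero _)
        (hC1 u) h1 h2
    obtain ⟨l1, l2⟩ := hlink x z (hne h) 1 (he u₀)
    rw [pow_one] at l1 l2
    have hu₀ := abs_le.mp (FermatAgent.LT.Ctx.abs_log_sub_le (locM_pos v e1_ne_zero _)
      (locM_pos _ e1_ne_zero _) hC' l1 l2)
    have e1' := hstep (C.next u₀)
    have e2' := hstep (C.next (C.next u₀))
    rw [prev_next] at e1' e2'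
    unfold famLog
    rw [univ_fib u₀, Finset.sum_insert, Finset.sum_pair]
    · obtain ⟨a1, a2⟩ := abs_le.mp e1'
      obtain ⟨b1, b2⟩ := abs_le.mp e2'
      rw [abs_le]
      constructor <;> linarith
    · exact (next_ne hv (C.next u₀)).symm
    · simp [(next_ne hv u₀).symm, (next_next_ne hv u₀).symm]
  · obtain ⟨u, hu⟩ := C.exists_fixed' hv
    obtain rfl := C.subsingleton_fib hu u₀
    refine ⟨Real.log C', Real.log_nonneg hC', fun x z h => ?_⟩
    obtain ⟨h1, h2⟩ := hlink x z (hne h) 3 fun y => absV_fixed u₀ hu y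
    have := FermatAgent.LT.Ctx.abs_log_sub_le (pow_pos (locM_pos _ e1_ne_zero _) 3)
      (locM_pos _ e1_ne_zero _) hC' h1 h2
    rw [Real.log_pow, Nat.cast_ofNat] at this
    unfold famLog
    rwa [Finset.sum_eq_single u₀ (fun u' _ h => absurd (C.subsingleton_fib hu u') h)
      (fun h => absurd (Finset.mem_univ _) h)]

omit [IsTotallyComplex K] [IsTotallyComplex L] [IsPrincipalIdealRing (𝓞 K)] in
/-- The absolute local totals are bounded. -/
theorem exists_absTot_le {γ : G2 L} {δ₀ : G2 K} {δ : GL (Fin 2) K} {H : Subgroup (G2 K)}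
    (G : Glue S.P γ δ₀ H) (hvT : v ∈ G.T) (hA : LinkAt δ v (G.A v)) :
    ∃ B : ℝ, 0 ≤ B ∧ ∀ z, G.absTot v z ≤ B := by
  classical
  set b := ∏ u : C.Fib v, (S.P.kw u.1).bnd
  have hb : 0 ≤ b := Finset.prod_nonneg fun u _ => LocKer.bnd_nonneg _
  obtain ⟨u₀, t, Q, -, hQ⟩ := hA
  obtain ⟨N₁, hN₁⟩ := (S.P.kw (C.next u₀).1).exists_card_row
  obtain ⟨N₂, hN₂⟩ := (S.P.kw (C.next (C.next u₀)).1).exists_card_row
  have hcount : ∀ z, ∀ s : Finset (Fam C.B v),
      (∀ x ∈ s, S.P.loc v (ft C.B γ v x) x * (G.A v x z : ℂ) ≠ 0) →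
        s.card ≤ N₂ * N₁ * Q.card := by
    intro z s hsupp
    obtain ⟨g, rfl⟩ := QuotientGroup.mk_surjective z
    have hrow : ∀ x ∈ s, ∀ u, (S.P.kw u.1).k (γ • C.sg u (x (C.prev u))) (x u) ≠ 0 :=
      fun x hx u => by
        rw [← C.ft_apply]
        exact Finset.prod_ne_zero_iff.mp (left_ne_zero_of_mul (hsupp x hx)) u (Finset.mem_univ u)
    let base : G2 L → Fam C.B v := fun q _ =>
      QuotientGroup.mk (ProjGenLinGroup.mk t * incl (K := K) (L := L) g * q)
    refine (Finset.card_le_mul_card_image (f := fun x : Fam C.B v => x u₀) s (N₂ * N₁)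
      fun a _ => ?_).trans (Nat.mul_le_mul le_rfl ((Finset.card_le_card
        (t := Q.image fun q => base q u₀) ?_).trans Finset.card_image_le))
    · refine (Finset.card_le_mul_card_image (f := fun x : Fam C.B v => x (C.next u₀)) _ N₂
        fun a' _ => ?_).trans (Nat.mul_le_mul le_rfl ((Finset.card_le_card
          (t := ((S.P.kw (C.next u₀).1).row (γ • C.sg (C.next u₀)
            ((Function.update (base 1) u₀ a) (C.prev (C.next u₀))))).toFinset) ?_).trans (hN₁ _)))
      · refine (Finset.card_le_card_of_injOn (fun x => x (C.next (C.next u₀)))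
          (t := ((S.P.kw (C.next (C.next u₀)).1).row
            (γ • C.sg (C.next (C.next u₀)) ((Function.update (base 1) (C.next u₀) a')
              (C.prev (C.next (C.next u₀)))))).toFinset) (fun x hx => ?_) ?_).trans (hN₂ _)
        · simp only [Finset.mem_coe, Finset.mem_filter] at hx
          rw [Finset.mem_coe, Set.Finite.mem_toFinset, Set.mem_ofPred_eq]
          have h3 : ∀ u', u' = C.next u₀ → x u' = Function.update (base 1) (C.next u₀) a' u' := by
            rintro u' rfl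
            rw [Function.update_self]
            exact hx.2
          rw [← h3 _ (prev_next (C.next u₀))]
          exact hrow x hx.1.1 _
        · intro x hx y hy e
          simp only [Finset.mem_coe, Finset.mem_filter] at hx hy
          funext u'
          rcases fib_cases u₀ u' with rfl | rfl | rfl
          exacts [hx.1.2.trans hy.1.2.symm, hx.2.trans hy.2.symm, e]
      · intro a' ha'
        obtain ⟨x, hx, rfl⟩ := Finset.mem_image.mp ha'
        rw [Finset.mem_filter] at hx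
        rw [Set.Finite.mem_toFinset, Set.mem_ofPred_eq]
        have h3 : ∀ u', u' = u₀ → x u' = Function.update (base 1) u₀ a u' := by
          rintro u' rfl
          rw [Function.update_self]
          exact hx.2
        rw [← h3 _ (prev_next u₀)]
        exact hrow x hx.1 _
    · intro a ha
      obtain ⟨x, hx, rfl⟩ := Finset.mem_image.mp ha
      obtain ⟨q, hq, e⟩ := hQ x _ (fun h0 => right_ne_zero_of_mul (hsupp x hx) (by simp [h0])) g rfl
      exact Finset.mem_image.mpr ⟨q, hq, e.symm⟩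
  refine ⟨(N₂ * N₁ * Q.card : ℕ) * b, mul_nonneg (Nat.cast_nonneg _) hb, fun z => ?_⟩
  unfold TwistCtx.Glue.absTot
  rw [tsum_eq_sum (s := (G.finite_x v hvT z).toFinset) fun x hx => by
    rw [norm_eq_zero]
    by_contra hne
    exact hx ((Set.Finite.mem_toFinset _).mpr hne)]
  refine (Finset.sum_le_card_nsmul _ _ b fun x hx => ?_).trans ?_
  · have hne := (Set.Finite.mem_toFinset _).mp hx
    rw [norm_mul, Complex.norm_real, Real.norm_eq_abs, abs_of_nonneg (G.nonneg v hvT x z)]
    have hsum := G.sum_z v hvT x (left_ne_zero_of_mul hne)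
    refine le_trans (mul_le_of_le_one_right (norm_nonneg _)
      (le_hasSum hsum z fun z' _ => G.nonneg v hvT x z')) ?_
    rw [KerPair.loc, norm_prod]
    exact Finset.prod_le_prod (fun u _ => norm_nonneg _) fun u _ => LocKer.norm_le_bnd _ _ _
  · rw [nsmul_eq_mul]
    exact mul_le_mul_of_nonneg_right (Nat.cast_le.mpr (hcount z _ fun x hx =>
      (Set.Finite.mem_toFinset _).mp hx)) hb

/-- The glued cosets of the unit translation are low. -/
theorem exists_low_bound {γ : G2 L} {H : Subgroup (G2 K)} (G : Glue S.P γ (nB (1 : K)) H)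
    (hA : LinkAt (uB (1 : K)) v (G.A v)) :
    ∃ Cb : ℝ, 1 ≤ Cb ∧ ∀ z, G.absTot v z ≠ 0 → locM v e1 z ≤ Cb := by
  classical
  obtain ⟨u, C', hC', hlink⟩ := exists_link_comp hA
  obtain ⟨R, hR1, hR⟩ := Geo.exists_near S v
  obtain ⟨e, he1, he⟩ := Geo.exists_exp u
  refine ⟨max 1 (C' * R), le_max_left _ _, fun z h => ?_⟩
  obtain ⟨x, hx⟩ := Geo.exists_of_absTot S G h
  have hA' : G.A v x z ≠ 0 := fun h0 => right_ne_zero_of_mul hx (by simp [h0])
  obtain ⟨-, h2⟩ := hlink x z hA' e he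
  have h3 : locM u.1 e1 (x u) ≤ R := by
    refine Geo.Ratio.e1_le hR1 ?_
    have := hR γ _ G.norm_eq x (left_ne_zero_of_mul hx) u
    rwa [Hyp.incl_nB, map_one] at this
  have hpos := locM_pos v e1_ne_zero z
  rcases le_total (locM v e1 z) 1 with hle | hle
  · exact hle.trans (le_max_left _ _)
  · calc locM v e1 z = locM v e1 z ^ 1 := (pow_one _).symm
      _ ≤ locM v e1 z ^ e := pow_le_pow_right₀ hle he1
      _ ≤ C' * R := h2.trans (mul_le_mul_of_nonneg_left h3 (zero_le_one.trans hC'))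
      _ ≤ _ := le_max_right _ _

/-- The gluing data of the translation classes exist. -/
theorem exists_uGlue {v₀ : HeightOneSpectrum (𝓞 K)} (hs : C.IsSplit v₀) (u₀ : C.Fib v₀) :
    Nonempty (UGlue S u₀) := by
  classical
  have h1 : (ProjGenLinGroup.mk (uB (1 : K)) : G2 K) ≠ 1 := FermatAgent.LT.Ctx.uB_one_ne_one
  obtain ⟨Γ, hΓ, e⟩ := C.X.exists_isRep_of_nrm C.twist (Uni.nrm_nB_third C.X)
  obtain ⟨G₀, hl₀, hb₀, hA₀⟩ := Geo.exists_glue S hs u₀ h1 hΓ
  obtain ⟨h0, hidx⟩ := C.X.index_eq C.twist h1 hΓ G₀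
  have key : ∃ G : Glue S.P (ProjGenLinGroup.mk Γ) (nB (1 : K)) (torus (uB (1 : K))),
      (∀ v, LinkAt (uB (1 : K)) v (G.A v)) ∧ G.lift = C.liftFam ∧ G.A v₀ = C.splitA u₀ ∧
      G.subC.index ≠ 0 ∧
      (C.X.subK (nB (1 : K)) (torus (uB (1 : K)))).index = G.subC.index :=
    ⟨G₀, hA₀, hl₀, hb₀, h0, hidx⟩
  rw [e] at key
  obtain ⟨G, hA, hl, hb, h0', hidx'⟩ := key
  choose Cb hCb1 hCb using fun v => exists_low_bound S G (hA v)
  choose D' hD0 hD using fun v => exists_famLog_bound S ((3 : L)⁻¹) (hA v)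
  have hB : ∀ v, ∃ B : ℝ, 0 ≤ B ∧ (v ∈ G.T → ∀ z, G.absTot v z ≤ B) := fun v => by
    by_cases hv : v ∈ G.T
    · obtain ⟨B, h1, h2⟩ := exists_absTot_le S G hv (hA v)
      exact ⟨B, h1, fun _ => h2⟩
    · exact ⟨0, le_rfl, fun h => absurd h hv⟩
  choose Bt hB0 hBt using hB
  exact ⟨⟨⟨G, C.congrK, fun v hv => C.UK_else v fun h => hv (G.subset (S.S_sub h)),
    fun v _ z => by rw [hl, famLog_lift], h0', hidx', Cb, hCb, D', hD, Bt, hB0, hBt⟩, hb, hCb1⟩⟩

section Main

variable {v₀ : HeightOneSpectrum (𝓞 K)} (hs : C.IsSplit v₀) {u₀ : C.Fib v₀}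
  (hone : ∀ u ≠ u₀, S.kS v₀ u = 1) {R : ℕ} (hflat : Geo.FlatKer R (S.kS v₀ u₀))
  {sL : Set (Space C.UL)} (hsL : IsFundamentalDomain (G2 L) sL (Space.vol C.UL))
  {sK : Set (Space C.UK)} (hsK : IsFundamentalDomain (G2 K) sK (Space.vol C.UK))

include hs hone hflat hsL hsK in
/-- The unipotent conditions of a system with a flat component. -/
theorem uni_parts :
    Space.TruncBdd sL (C.X.σ.sumOn S.P.up.toPtKer (C.X.parSet \ C.X.idSet)) ∧
      Space.TruncBdd sK (C.X.σK.sumOn S.P.down.toPtKer (FermatAgent.LT.Ctx.uniK K)) := by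
  obtain ⟨UG⟩ := exists_uGlue S hs u₀
  exact ⟨bounded_uniL_of_uGlue UG hsL hs hone hflat, bounded_uniK_of_uGlue UG hsK hs hone hflat⟩

end Main

end FermatAgent.LT2.Ctx
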