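import Mathlib
import Fermat.Agent.LT2.Glue.Assemble
import Fermat.Agent.LT2.Geo.Hyp
import Fermat.Agent.LT2.Geo.UniGlue
import Fermat.Agent.LT2.Spec.Data

/-!
# The geometric trace identity with a flat kernel inserted

For families sharing everything away from a split place good for the levels, a kernel flat up to a
range depending only on the family makes the truncated hyperbolic parts vanish and the unipotent
parts bounded, so the two sides of the trace identity agree.
-/

set_option autoImplicit false

noncomputable section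

open Matrix IsDedekindDomain NumberField MeasureTheory
open scoped MatrixGroups

namespace FermatAgent.LT2.Geo

open FermatAgent.LT

/-- A radial kernel with flat profile is flat. -/
theorem flatKer_of_flatK {F : Type*} [Field F] [NumberField F] {U : Level F}
    {v : HeightOneSpectrum (𝓞 F)} (hU : U.loc v = locK v) {R : ℕ} {k : LocKer U v}
    (hk : Spec.FlatK R k) : FlatKer R k := by
  obtain ⟨c, hc, hck⟩ := hk
  classical
  set φ : ℕ →₀ ℂ := Finsupp.onFinset c.support
    (fun n => ((c n / Spec.sqN v ^ n : ℝ) : ℂ)) fun n hn =>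
      Finsupp.mem_support_iff.mpr fun h => hn (by simp [h]) with hφdef
  have hφ : ∀ n, φ n =
      (c n : ℂ) * (((Real.sqrt v.asIdeal.absNorm)⁻¹ ^ n : ℝ) : ℂ) := fun n => by
    rw [← Complex.ofReal_mul, inv_pow, ← div_eq_mul_inv]
    rfl
  have e : k = Cusp.sph hU φ := by
    ext x y
    rw [hck, Cusp.sph_k]
    rfl
  rw [e]
  exact flatKer_sph hU hc hφ

variable {K L : Type*} [Field K] [NumberField K] [Field L] [NumberField L] [Algebra K L]
  [IsTotallyComplex K] [IsTotallyComplex L] [IsPrincipalIdealRing (𝓞 K)] {C : Ctx K L}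

/-- **The geometric trace identity** at a split place outside the bad ones: for a kernel flat up to
a large enough range the truncated hyperbolic sums vanish and the unipotent ones have bounded
primitives, while the elliptic and central terms of the two sides agree class by class. -/
theorem geoEq (D : C.Bad) {v₀ : HeightOneSpectrum (𝓞 K)} (u₀ : C.Fib v₀) (hv₀ : C.IsSplit v₀)
    (hS₀ : v₀ ∉ C.S) {sL : Set (Space C.UL)}
    (hsL : IsFundamentalDomain (G2 L) sL (Space.vol C.UL)) {sK : Set (Space C.UK)}
    (hsK : IsFundamentalDomain (G2 K) sK (Space.vol C.UK)) (hsKm : MeasurableSet sK) :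
    Spec.GeoEq D u₀ sL sK := by
  intro ι _ coef S _
  classical
  choose R hR using fun i => exists_hyp (S i) u₀ hv₀ hsL hsK
  refine ⟨Finset.univ.sup R, fun k hk S' hins hBL hBK => ?_⟩
  have hflat := flatKer_of_flatK (C.UK_else v₀ hS₀) hk
  have hR' : ∀ i, R i ≤ Finset.univ.sup R := fun i => Finset.le_sup (Finset.mem_univ i)
  have hu : ∀ i, FlatKer (Finset.univ.sup R) ((S' i).kS v₀ u₀) := fun i => by
    rw [(hins i).at_u]; exact hflat
  have huni := fun i => Ctx.uni_parts (S' i) hv₀ (u₀ := u₀) (hins i).at_other (hu i) (sL := sL)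
    hsL (sK := sK) hsK
  obtain ⟨BL, hBL⟩ := hBL
  obtain ⟨BK, hBK⟩ := hBK
  exact Ctx.trace_eq_of_parts hsL hsK hsKm coef S'
    ⟨BL, fun x => hBL _ _⟩ ⟨BK, fun x => hBK _ _⟩
    (fun i => (hR i _ k (hR' i) hflat (S' i) (hins i)).1)
    (fun i => (hR i _ k (hR' i) hflat (S' i) (hins i)).2)
    (fun i => (huni i).1) (fun i => (huni i).2)

end FermatAgent.LT2.Geo
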